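import Fermat.Agent.Divisible.FieldLemmas
import Fermat.Agent.Specialization.Riemann
import Fermat.Agent.Specialization.ModularField
import Fermat.Agent.Curves.Orbits
import Fermat.Agent.Kronecker.Galois
import Fermat.Agent.Specialization.Inputs
import Fermat.Agent.FrobTrace.Global

/-!
# Finitely many classes are fixed by a power of Frobenius
-/

set_option autoImplicit false

noncomputable section

namespace FLTAgent.Divisible

set_option linter.unusedSectionVars false

open AlgebraicCurve FLTAgent.Curves FLTAgent.Specialization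

section General

variable {K F : Type*} [Field K] [Field F] [Algebra K F] [IsAlgClosed K] [IsFunctionField K F]

theorem eq_of_ordGE_sub {v : Place K F} {x : F} {a b : K}
    (ha : OrdGE v 1 (x - algebraMap K F a)) (hb : OrdGE v 1 (x - algebraMap K F b)) : a = b := by
  by_contra hne
  have h := ha.sub hb
  rw [sub_sub_sub_cancel_left, ← map_sub] at h
  have h1 := h.le_ord ((_root_.map_ne_zero _).2 (sub_ne_zero.2 (Ne.symm hne)))
  rw [ord_algebraMap] at h1
  omega

/-- A semilinear automorphism raising constants to a power fixes finitely many points. -/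
theorem finite_fixed_places (Ψ : SemilinearAut K F) {x : F} (hx : Transcendental K x)
    (hΨx : Ψ • x = x) {q : ℕ} (hq : 1 < q) (hbase : ∀ a, SemilinearAut.baseAut Ψ a = a ^ q) :
    {v : Place K F | Ψ • v = v}.Finite := by
  classical
  set R : Set K := {a | a ^ q = a}
  have hR : R.Finite := by
    refine ((Polynomial.X ^ q - Polynomial.X : Polynomial K).roots.toFinset.finite_toSet).subset
      fun a ha => ?_
    simp [Polynomial.mem_roots', FiniteField.X_pow_card_sub_X_ne_zero K hq,
      sub_eq_zero.2 (show a ^ q = a from ha)]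
  have hfib : ∀ a : K, {v : Place K F | OrdGE v 1 (x - algebraMap K F a)}.Finite := fun a =>
    (finite_zeros (x - algebraMap K F a)).subset fun v hv =>
      lt_of_lt_of_le zero_lt_one (hv.le_ord (ne_zero_of_transcendental (transcendental_sub hx a)))
  refine ((finite_poles x).union (hR.biUnion fun a _ => hfib a)).subset fun v hv => ?_
  rcases lt_or_ge (v.ord x) 0 with h | h
  · exact Or.inl h
  refine Or.inr (Set.mem_biUnion (x := placeValue x v) ?_ (ordGE_sub_placeValue h))
  have h1 := ordGE_sub_placeValue h
  have h2 : OrdGE (Ψ • v) 1 (Ψ • (x - algebraMap K F (placeValue x v))) := by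
    rcases h1 with h0 | h0
    · rw [h0, smul_zero]; exact ordGE_zero _ _
    · exact ordGE_of_le (by rwa [SemilinearAut.ord_smul])
  rw [smul_sub, hΨx, SemilinearAut.smul_algebraMap, hbase, show Ψ • v = v from hv] at h2
  exact eq_of_ordGE_sub h2 h1

/-- The class of a divisor normalised at a point. -/
def clsAt (O : Place K F) (D : Divisor K F) : Pic0 K F :=
  Pic0.mk ⟨D - Finsupp.single O (Divisor.degree D), by
    rw [Divisor.mem_degZero, map_sub, degree_single', sub_self]⟩

theorem exists_divOf_of_clsAt {O : Place K F} {D E : Divisor K F}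
    (h : clsAt O D = clsAt O E) :
    ∃ f : F, f ≠ 0 ∧ D - Finsupp.single O (Divisor.degree D) =
      E - Finsupp.single O (Divisor.degree E) + divOf K f := by
  unfold clsAt Pic0.mk at h
  rw [QuotientAddGroup.eq_iff_sub_mem, AddSubgroup.mem_addSubgroupOf] at h
  obtain ⟨f, hf, hv⟩ := h
  refine ⟨f, hf, Finsupp.ext fun v => ?_⟩
  have := hv v
  simp only [AddSubgroup.coe_sub, Finsupp.sub_apply] at this
  rw [Finsupp.add_apply, divOf_apply, Finsupp.sub_apply, Finsupp.sub_apply]
  omega

theorem smul_clsAt (Φ : SemilinearAut K F) {O : Place K F} (hO : Φ • O = O) (D : Divisor K F) :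
    Φ • clsAt O D = clsAt O (Φ • D) := by
  have h := SemilinearAut.degree_smul Φ D
  have h' : Φ • D - Finsupp.single O (Divisor.degree D) ∈ Divisor.degZero (K := K) (F := F) := by
    rw [Divisor.mem_degZero, map_sub, degree_single', h, sub_self]
  rw [clsAt, smul_mk_normalised Φ hO D _ _ h']
  exact congrArg Pic0.mk (Subtype.ext
    (congrArg (fun n => Φ • D - Finsupp.single O n) h.symm))

theorem exists_effective (O : Place K F) (c : Pic0 K F) :
    ∃ E : Divisor K F, 0 ≤ E ∧ Divisor.degree E ≤ max (rGenus K F) 0 ∧ clsAt O E = c := by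
  obtain ⟨D, rfl⟩ := Pic0.mk_surjective c
  set G : Divisor K F := (D : Divisor K F) + Finsupp.single O (max (rGenus K F) 0)
  have hG : Divisor.degree G = max (rGenus K F) 0 := by
    simp only [G, map_add, degree_single', Divisor.mem_degZero.1 D.2, zero_add]
  have h1 : Divisor.degree G + 1 - rGenus K F ≤ ell G :=
    (exists_riemann (K := K) (F := F)).choose_spec.choose_spec.2.1 G
  rw [hG] at h1
  have h2 : 0 < ell G := by
    have := le_max_left (rGenus K F) 0
    omega
  obtain ⟨f, hf, hf0⟩ := (Submodule.ne_bot_iff (riemannRochSpace G)).1 fun hb => by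
    rw [ell, hb, finrank_bot] at h2; omega
  refine ⟨G + divOf K f, fun v => ?_, by rw [map_add, hG, degree_divOf, add_zero], ?_⟩
  · have := (mem_rrSpace.1 hf v).le_ord hf0
    rw [Finsupp.add_apply, divOf_apply]
    show 0 ≤ _
    omega
  · unfold clsAt Pic0.mk
    rw [QuotientAddGroup.eq_iff_sub_mem, AddSubgroup.mem_addSubgroupOf]
    refine ⟨f, hf0, fun v => ?_⟩
    simp only [AddSubgroup.coe_sub, map_add, hG, degree_divOf, add_zero, G, degree_single',
      Divisor.mem_degZero.1 D.2, zero_add, Finsupp.sub_apply, Finsupp.add_apply, divOf_apply]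
    ring

/-- Classes fixed by a power of Frobenius form a finite set. -/
theorem finite_fixed_classes (Φ : SemilinearAut K F) {O : Place K F} (hO : Φ • O = O) {x : F}
    (hx : Transcendental K x) (hΦx : Φ • x = x) {q : ℕ} (hq : 1 < q)
    (hbase : ∀ a, SemilinearAut.baseAut Φ a = a ^ q) :
    {c : Pic0 K F | Φ • c = c}.Finite := by
  classical
  set g : ℕ := (max (rGenus K F) 0).toNat
  set M : ℕ := g.factorial
  have hbaseM : ∀ (m : ℕ) (a : K), SemilinearAut.baseAut (Φ ^ m) a = a ^ q ^ m := by
    intro m
    induction m with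
    | zero => intro a; simp
    | succ m ih =>
        intro a
        rw [pow_succ, SemilinearAut.baseAut_mul]
        show SemilinearAut.baseAut (Φ ^ m) (SemilinearAut.baseAut Φ a) = _
        rw [hbase, ih, ← pow_mul, ← pow_succ']
  have hxM : ∀ m : ℕ, Φ ^ m • x = x := by
    intro m
    induction m with
    | zero => simp
    | succ m ih => rw [pow_succ, mul_smul, hΦx, ih]
  have hT := finite_fixed_places (Φ ^ M) hx (hxM M)
    (Nat.one_lt_pow (Nat.factorial_ne_zero g) hq) (hbaseM M)
  set T := hT.toFinset
  -- effective divisors of bounded degree supported on the fixed points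
  set 𝒟 : Set (Divisor K F) := {E | 0 ≤ E ∧ Divisor.degree E ≤ g ∧ E.support ⊆ T}
  have h𝒟 : 𝒟.Finite := by
    refine Set.Finite.of_finite_image (f := fun E : Divisor K F => fun v : T => E v.1)
      ((Set.Finite.pi (t := fun _ : T => Set.Icc (0 : ℤ) g) fun _ => Set.finite_Icc _ _).subset ?_) ?_
    · rintro _ ⟨E, ⟨hE, hd, -⟩, rfl⟩
      refine fun v _ => ⟨hE v.1, ?_⟩
      have hle : Finsupp.single v.1 (E v.1) ≤ E := fun w => by
        rw [Finsupp.single_apply]
        split_ifs with h
        · subst h; exact le_rfl
        · exact hE w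
      have := degree_mono hle
      rw [degree_single'] at this
      show E v.1 ≤ g
      omega
    · rintro E ⟨-, -, hE⟩ E' ⟨-, -, hE'⟩ h
      refine Finsupp.ext fun v => ?_
      by_cases hv : v ∈ T
      · exact congrFun h ⟨v, hv⟩
      · rw [Finsupp.notMem_support_iff.1 fun h' => hv (hE h'),
          Finsupp.notMem_support_iff.1 fun h' => hv (hE' h')]
  refine (h𝒟.image (clsAt O)).subset fun c hc => ?_
  have hex : ∃ d : ℕ, ∃ E : Divisor K F, 0 ≤ E ∧ Divisor.degree E = d ∧ clsAt O E = c := by
    obtain ⟨E, h1, -, h3⟩ := exists_effective O c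
    exact ⟨(Divisor.degree E).toNat, E, h1, (Int.toNat_of_nonneg (degree_nonneg h1)).symm, h3⟩
  obtain ⟨E, hE, hdE, hcE⟩ := Nat.find_spec hex
  have hdg : Divisor.degree E ≤ g := by
    obtain ⟨E', h1, h2, h3⟩ := exists_effective O c
    have := Nat.find_min' hex (m := (Divisor.degree E').toNat)
      ⟨E', h1, (Int.toNat_of_nonneg (degree_nonneg h1)).symm, h3⟩
    have := degree_nonneg h1
    omega
  have hfix : Φ • E = E := by
    have hd : Divisor.degree (Φ • E) = Divisor.degree E := SemilinearAut.degree_smul Φ E
    have hcl : clsAt O (Φ • E) = clsAt O E := by rw [← smul_clsAt Φ hO, hcE]; exact hc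
    obtain ⟨f, hf, hdiv⟩ := exists_divOf_of_clsAt hcl
    rw [hd] at hdiv
    have hΦE : Φ • E = E + divOf K f := by
      refine Finsupp.ext fun w => ?_
      have := DFunLike.congr_fun hdiv w
      simp only [Finsupp.sub_apply, Finsupp.add_apply] at this
      rw [Finsupp.add_apply]
      omega
    have hΦ0 : 0 ≤ Φ • E := fun v => by
      rw [SemilinearAut.divisor_smul_apply]; exact hE _
    have hmem : f ∈ riemannRochSpace E := mem_rrSpace.2 fun v => ordGE_of_le (by
      have := hΦ0 v
      rw [hΦE, Finsupp.add_apply, divOf_apply] at this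
      change 0 ≤ _ at this
      omega)
    have hell : ell E = 1 := by
      refine le_antisymm (le_of_not_gt fun h2 => ?_) ?_
      · have hsub : E - Finsupp.single O 1 ≤ E := fun w => by
          rw [Finsupp.sub_apply, Finsupp.single_apply]; split_ifs <;> omega
        have h3 := ell_sub_le hsub
        rw [map_sub, degree_single'] at h3
        obtain ⟨u, hu, hu0⟩ := (Submodule.ne_bot_iff _).1
          (fun hb : riemannRochSpace (E - Finsupp.single O 1) = ⊥ => by
            have h4 : ell (E - Finsupp.single O 1) = 0 := by rw [ell, hb, finrank_bot]; rfl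
            omega)
        set E' := E - Finsupp.single O 1 + divOf K u with hE'def
        have hE' : 0 ≤ E' := fun w => by
          have := (mem_rrSpace.1 hu w).le_ord hu0
          rw [hE'def, Finsupp.add_apply, divOf_apply]
          show 0 ≤ _
          omega
        have hd' := degree_nonneg hE'
        have hdeg : Divisor.degree E' = Divisor.degree E - 1 := by
          simp only [E', map_add, map_sub, degree_single', degree_divOf, add_zero]
        refine Nat.find_min hex (m := (Divisor.degree E').toNat) (by omega)
          ⟨E', hE', (Int.toNat_of_nonneg hd').symm, ?_⟩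
        rw [← hcE]
        unfold clsAt Pic0.mk
        rw [QuotientAddGroup.eq_iff_sub_mem, AddSubgroup.mem_addSubgroupOf]
        refine ⟨u, hu0, fun w => ?_⟩
        simp only [AddSubgroup.coe_sub, hdeg, E', Finsupp.sub_apply, Finsupp.add_apply,
          divOf_apply, Finsupp.single_sub]
        ring
      · have h1 := ell_mono hE
        have h0 : ell (0 : Divisor K F) = 1 := by rw [ell, finrank_rrSpace_zero]; rfl
        rwa [h0] at h1
    obtain ⟨a, rfl⟩ := mem_range_of_finrank_one (W := riemannRochSpace E)
      (Nat.cast_injective (R := ℤ) hell) (one_mem_rrSpace hE) hmem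
    rw [hΦE, divOf_algebraMap, add_zero]
  have hsupp : E.support.card ≤ g := by
    have h1 : (E.support.card : ℤ) ≤ ∑ v ∈ E.support, E v := by
      rw [Finset.card_eq_sum_ones]
      push_cast
      refine Finset.sum_le_sum fun v hv => ?_
      have := hE v
      have := Finsupp.mem_support_iff.1 hv
      simp only [Finsupp.coe_zero, Pi.zero_apply] at *
      omega
    rw [← degree_eq_sum subset_rfl] at h1
    omega
  refine ⟨E, ⟨hE, hdg, fun v hv => hT.mem_toFinset.2 ?_⟩, hcE⟩
  show Φ ^ M • v = v
  have horb : ∀ i : ℕ, Φ ^ i • v ∈ E.support := by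
    intro i
    induction i with
    | zero => simpa using hv
    | succ i ih =>
        rw [pow_succ', mul_smul, Finsupp.mem_support_iff, ← hfix,
          SemilinearAut.divisor_smul_apply_smul]
        exact Finsupp.mem_support_iff.1 ih
  obtain ⟨i, hi, j, hj, hij, heq⟩ := Finset.exists_ne_map_eq_of_card_lt_of_maps_to
    (s := Finset.range (g + 1)) (by rw [Finset.card_range]; omega) (fun i _ => horb i)
  rw [Finset.mem_range] at hi hj
  wlog hlt : i < j generalizing i j
  · exact this j hj i hi hij.symm heq.symm (by omega)
  have hper : Φ ^ (j - i) • v = v := by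
    refine MulAction.injective (Φ ^ i) ?_
    show Φ ^ i • Φ ^ (j - i) • v = Φ ^ i • v
    rw [smul_smul, ← pow_add, Nat.add_sub_cancel' hlt.le]
    exact heq.symm
  obtain ⟨n, hn⟩ : (j - i) ∣ M := Nat.dvd_factorial (by omega) (by omega)
  rw [hn, pow_mul]
  clear hn
  induction n with
  | zero => simp
  | succ n ih => rw [pow_succ, mul_smul, hper, ih]

end General

open ModularCurve IsLocalRing

theorem order_coeffMap_of_injective {R S : Type*} [Field R] [Field S] (g : R →+* S)
    (hg : Function.Injective g) (x : LaurentSeries R) :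
    (coeffMap g x).order = x.order := by
  rcases eq_or_ne x 0 with rfl | hx
  · simp
  have hne : ∀ i, (coeffMap g x).coeff i ≠ 0 ↔ x.coeff i ≠ 0 := fun i => by
    rw [coeffMap_coeff]; exact not_congr (map_eq_zero_iff g hg)
  have h0 : (coeffMap g x).coeff x.order ≠ 0 := (hne _).2 (by
    rw [← HahnSeries.leadingCoeff_eq]; exact HahnSeries.leadingCoeff_ne_zero.2 hx)
  refine le_antisymm (HahnSeries.order_le_of_coeff_ne_zero h0)
    (HahnSeries.order_le_of_coeff_ne_zero ((hne _).1 ?_))
  rw [← HahnSeries.leadingCoeff_eq]
  exact HahnSeries.leadingCoeff_ne_zero.2 fun h => h0 (by rw [h]; rfl)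

set_option synthInstance.maxHeartbeats 400000
set_option maxHeartbeats 1000000

/-- **Finiteness.** Finitely many classes of the special fibre are fixed by a power of
Frobenius. -/
theorem finite_fixed (N : ℕ) [NeZero N] {r : ℕ} [Fact r.Prime] (hrN : ¬ r ∣ N)
    (A : ValuationSubring (AlgebraicClosure ℚ)) (hA : A.LiesOverPrime r)
    (φ : ResidueField A ≃+* ResidueField A) (hφ : ∀ z, φ z = z ^ r) (k : ℕ) (hk : 0 < k) :
    {x : JZeroC (ResidueField A) N | (Kronecker.specialAut N φ) ^ k • x = x}.Finite := by
  set K := ResidueField A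
  set F := modularFunctionFieldFullC K N
  haveI : IsAlgClosed K := FLTAgent.FrobTrace.isAlgClosed_residueField A
  have hN : (N : K) ≠ 0 := FLTAgent.Specialization.natCast_ne_zero_residue hA hrN
  haveI : IsFunctionField K F := isFunctionField_full K N rfl hN
  set x : F := ⟨jqModC K, jqModC_mem_full K N⟩
  have hx : Transcendental K x :=
    FLTAgent.Specialization.transcendental_coe (FLTAgent.Specialization.transcendental_jq K)
  set Φ := (Kronecker.specialAut N φ) ^ k with hΦ
  have hpow : ∀ (m : ℕ) (a : K),
      SemilinearAut.baseAut ((Kronecker.specialAut N φ) ^ m) a = a ^ r ^ m := by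
    intro m
    induction m with
    | zero => intro a; simp
    | succ m ih =>
        intro a
        rw [pow_succ, SemilinearAut.baseAut_mul]
        show SemilinearAut.baseAut ((Kronecker.specialAut N φ) ^ m) (φ a) = _
        rw [hφ, ih, ← pow_mul, ← pow_succ']
  have hxfix : ∀ m : ℕ, (Kronecker.specialAut N φ) ^ m • x = x := by
    intro m
    induction m with
    | zero => simp
    | succ m ih =>
        rw [pow_succ, mul_smul]
        rw [show Kronecker.specialAut N φ • x = x from
          Subtype.ext (coeffMap_jqModC φ.toRingHom), ih]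
  have hord : ∀ (f : F), ((Kronecker.specialAut N φ • f : F) : LaurentSeries K).order =
      (f : LaurentSeries K).order := fun f =>
    order_coeffMap_of_injective φ.toRingHom φ.injective (f : LaurentSeries K)
  obtain ⟨O, c, hc, hO⟩ := Curves.exists_place (C := K) (κ := RingHom.id K)
    ((F.val : F →+* LaurentSeries K))
    (fun a => by
      show ((algebraMap K F a : F) : LaurentSeries K) = _
      exact (algebraMap_laurentSeries_eq_single _ a).trans (HahnSeries.C_apply a).symm)
    (t := x⁻¹) (by
      show 0 < ((x⁻¹ : F) : LaurentSeries K).order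
      rw [IntermediateField.coe_inv, lord_inv]
      have h1 : (jqModC K).order ≤ -1 :=
        HahnSeries.order_le_of_coeff_ne_zero (by rw [coeff_jqModC_neg_one]; exact one_ne_zero)
      show 0 < -(jqModC K).order
      omega)
  have hO1 : Kronecker.specialAut N φ • O = O := by
    refine place_eq_of_le fun f hf => ?_
    rw [← ordGE_zero_iff_mem] at hf ⊢
    rcases hf with rfl | hf
    · exact ordGE_zero _ _
    refine Or.inr ?_
    have h1 : f = Kronecker.specialAut N φ • ((Kronecker.specialAut N φ)⁻¹ • f) :=
      (smul_inv_smul _ f).symm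
    rw [h1, SemilinearAut.ord_smul] at hf
    have h2 := hord ((Kronecker.specialAut N φ)⁻¹ • f)
    rw [← h1] at h2
    have hO' : ∀ g : F, (g : LaurentSeries K).order = c * O.ord g := hO
    rw [hO' f, hO'] at h2
    have h3 : c * O.ord f = c * O.ord ((Kronecker.specialAut N φ)⁻¹ • f) := h2
    rwa [mul_left_cancel₀ hc.ne' h3]
  have hOk : Φ • O = O := by
    rw [hΦ]
    clear hk hΦ
    induction k with
    | zero => simp
    | succ m ih => rw [pow_succ, mul_smul, hO1, ih]
  exact finite_fixed_classes Φ hOk hx (hxfix k)
    (Nat.one_lt_pow hk.ne' (Fact.out : r.Prime).one_lt) (hpow k)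

end FLTAgent.Divisible
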