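import Fermat.Agent.Divisible.BaseChange

/-!
# The class group of `X₀(N)` over the algebraic numbers is divisible
-/

set_option autoImplicit false

noncomputable section

namespace FLTAgent.Divisible

set_option linter.unusedSectionVars false

open AlgebraicCurve FLTAgent.X0Fn FLTAgent.Curves FLTAgent.Specialization

variable {N : ℕ} [NeZero N]

local notation "FQ" => XF (AlgebraicClosure ℚ) N
local notation "FC" => XF ℂ N

set_option maxHeartbeats 1000000 in
/-- A class with finitely many conjugates comes from the algebraic numbers. -/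
theorem exists_liftDiv_cls (z : Pic0 ℂ FC)
    (hz : ((fun e => gal N e • z) '' Fix (acl (∅ : Set ℂ) : Set ℂ)).Finite) :
    ∃ E : Divisor (AlgebraicClosure ℚ) FQ, cls (liftDiv N E) = z := by
  classical
  have hex : ∃ d : ℕ, ∃ E : Divisor ℂ FC, 0 ≤ E ∧ Divisor.degree E = d ∧ cls E = z := by
    obtain ⟨E, h1, h2, h3⟩ := exists_eff z
    exact ⟨(rGenus ℂ FC).toNat, E, h1, by rw [h2, Int.toNat_of_nonneg rGenus_nonneg], h3⟩
  obtain ⟨E, hE, hdE, hcE⟩ := Nat.find_spec hex
  -- no pencil
  have hell : ell E = 1 := by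
    refine le_antisymm (le_of_not_gt fun h2 => ?_) ?_
    · have hsub : E - Finsupp.single (cusp N) 1 ≤ E := fun w => by
        rw [Finsupp.sub_apply, Finsupp.single_apply]; split_ifs <;> omega
      have h3 := ell_sub_le hsub
      rw [map_sub, degree_single'] at h3
      obtain ⟨f, hf, hf0⟩ := (Submodule.ne_bot_iff _).1
        (fun hb : riemannRochSpace (E - Finsupp.single (cusp N) 1) = ⊥ => by
          have h4 : ell (E - Finsupp.single (cusp N) 1) = 0 := by rw [ell, hb, finrank_bot]; rfl
          omega)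
      set E' := E - Finsupp.single (cusp N) 1 + divOf ℂ f
      have hE' : 0 ≤ E' := fun w => by
        have := (mem_rrSpace.1 hf w).le_ord hf0
        show (0 : ℤ) ≤ ((E - Finsupp.single (cusp N) (1 : ℤ) + divOf ℂ f : Divisor ℂ FC)) w
        rw [Finsupp.add_apply, divOf_apply]; omega
      have hd' := degree_nonneg hE'
      have hdeg : Divisor.degree E' = Divisor.degree E - 1 := by
        simp only [E', map_add, map_sub, degree_single', degree_divOf, add_zero]
      refine Nat.find_min hex (m := (Divisor.degree E').toNat) ?_ ⟨E', hE', ?_, ?_⟩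
      · omega
      · rw [Int.toNat_of_nonneg hd']
      · simp only [E', map_add, map_sub, cls_single_cusp, cls_divOf hf0, hcE, sub_zero, add_zero]
    · have h1 := ell_mono hE
      rwa [ell_zero] at h1
  have horbit : ((fun e => gal N e • E) '' Fix (acl (∅ : Set ℂ) : Set ℂ)).Finite := by
    refine Set.Finite.of_finite_image (f := cls) (hz.subset ?_) ?_
    · rintro _ ⟨_, ⟨e, he, rfl⟩, rfl⟩
      exact ⟨e, he, by show gal N e • z = _; rw [← hcE, smul_cls]⟩
    · rintro _ ⟨e, he, rfl⟩ _ ⟨e', he', rfl⟩ h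
      have h1 : gal N (e'⁻¹ * e) • E = E := by
        refine eq_of_ell_one hE (fun v => ?_) hell (SemilinearAut.degree_smul _ _) ?_
        · rw [SemilinearAut.divisor_smul_apply]; exact hE _
        · rw [← smul_cls, map_mul, mul_smul, smul_cls e, h, ← smul_cls, map_inv, inv_smul_smul]
      rw [map_mul, mul_smul, map_inv, inv_smul_eq_iff] at h1
      exact h1
  have hsupp : ∀ w, E w ≠ 0 → Algebraic' w := fun w hw => by
    refine special_of_finite_orbit
      (((horbit.image fun E : Divisor ℂ FC => (E.support : Set (Place ℂ FC))).sUnion ?_).subset ?_)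
    · rintro _ ⟨E, -, rfl⟩; exact E.support.finite_toSet
    · rintro _ ⟨e, he, rfl⟩
      refine Set.mem_sUnion.2 ⟨_, ⟨_, ⟨e, he, rfl⟩, rfl⟩, Finsupp.mem_support_iff.2 ?_⟩
      rw [SemilinearAut.divisor_smul_apply_smul]
      exact hw
  refine ⟨Finsupp.comapDomain (above N) E above_injective.injOn, ?_⟩
  rw [← hcE]
  refine congrArg cls (Finsupp.mapDomain_comapDomain _ above_injective _ fun w hw => ?_)
  exact ⟨below ⟨w, hsupp w (Finsupp.mem_support_iff.1 hw)⟩, above_below w _⟩

set_option maxHeartbeats 1000000 in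
/-- **Divisibility.** Multiplication by a positive integer is surjective on `J₀(N)(ℚ̄)`. -/
theorem exists_nsmul_eq (N : ℕ) [NeZero N] {l : ℕ} (hl : l ≠ 0) (x : ModularCurve.JZero N) :
    ∃ z : ModularCurve.JZero N, l • z = x := by
  obtain ⟨D, rfl⟩ := Pic0.mk_surjective x
  obtain ⟨z, hz⟩ := exists_nsmul_eq_complex hl (cls (liftDiv N D.1))
  have horb : ((fun e => gal N e • z) '' Fix (acl (∅ : Set ℂ) : Set ℂ)).Finite := by
    refine (finite_nsmul_eq hl (cls (liftDiv N D.1))).subset ?_
    rintro _ ⟨e, he, rfl⟩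
    show l • (gal N e • z) = _
    rw [← gal_nsmul, hz, smul_cls, gal_liftDiv he]
  obtain ⟨E, rfl⟩ := exists_liftDiv_cls z horb
  set v₀ := below (⟨cusp N, special_cusp⟩ : {w : Place ℂ (XF ℂ N) // Algebraic' w})
  set E₀ : Divisor (AlgebraicClosure ℚ) (XF (AlgebraicClosure ℚ) N) :=
    E - Finsupp.single v₀ (Divisor.degree E)
  have hE₀ : E₀ ∈ Divisor.degZero (K := AlgebraicClosure ℚ)
      (F := XF (AlgebraicClosure ℚ) N) := by
    rw [Divisor.mem_degZero, map_sub, degree_single', sub_self]
  refine ⟨Pic0.mk ⟨E₀, hE₀⟩, ?_⟩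
  have hv₀ : liftDiv N (Finsupp.single v₀ (Divisor.degree E)) =
      Finsupp.single (cusp N) (Divisor.degree E) := by
    show Finsupp.mapDomain _ _ = _
    rw [Finsupp.mapDomain_single, above_below]
  have hcl : cls (liftDiv N E₀) = cls (liftDiv N E) := by
    simp only [E₀, map_sub, hv₀, cls_single_cusp, sub_zero]
  have h0 : cls (liftDiv N (l • E₀ - D.1)) = cls (0 : Divisor ℂ (XF ℂ N)) := by
    rw [map_sub, map_sub, map_nsmul, map_nsmul, hcl, hz, sub_self, map_zero]
  have hd : Divisor.degree (liftDiv N (l • E₀ - D.1)) = Divisor.degree (0 : Divisor ℂ (XF ℂ N)) := by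
    rw [degree_liftDiv, map_sub, map_nsmul, Divisor.mem_degZero.1 hE₀, Divisor.mem_degZero.1 D.2,
      smul_zero, sub_zero, map_zero]
  obtain ⟨f, hf, hfD⟩ := exists_divOf_of_cls_eq hd h0
  rw [zero_add] at hfD
  refine eq_of_sub_eq_zero ?_
  have key := isPrincipal_of_liftDiv hf hfD
  show (QuotientAddGroup.mk (l • ⟨E₀, hE₀⟩ - D) : ModularCurve.JZero N) = 0
  rw [QuotientAddGroup.eq_zero_iff, AddSubgroup.mem_addSubgroupOf]
  exact key

end FLTAgent.Divisible
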