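import Fermat.Agent.TorsionHom.Translation

/-!
# Automorphisms of the complex numbers over algebraically closed subfields
-/

set_option autoImplicit false

noncomputable section

namespace FLTAgent.Divisible

open IntermediateField Cardinal

/-- The algebraic closure in `ℂ` of the field generated by a set. -/
def acl (S : Set ℂ) : IntermediateField ℚ ℂ :=
  (algebraicClosure (adjoin ℚ S) ℂ).restrictScalars ℚ

theorem mem_acl {S : Set ℂ} {z : ℂ} : z ∈ acl S ↔ IsAlgebraic (adjoin ℚ S) z :=
  mem_algebraicClosure_iff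

theorem subset_acl (S : Set ℂ) : S ⊆ acl S := fun z hz =>
  mem_acl.2 (isAlgebraic_algebraMap (⟨z, subset_adjoin ℚ S hz⟩ : adjoin ℚ S))

instance instIsAlgClosedAcl (S : Set ℂ) : IsAlgClosed (acl S) :=
  (algebraicClosure.isAlgClosure (adjoin ℚ S) ℂ).isAlgClosed

instance instIsAlgClosedAclSub (S : Set ℂ) : IsAlgClosed (acl S).toSubfield :=
  instIsAlgClosedAcl S

theorem acl_mono {S T : Set ℂ} (h : S ⊆ T) : acl S ≤ acl T := by
  intro z hz
  rw [mem_acl] at hz ⊢
  letI : Algebra (adjoin ℚ S) (adjoin ℚ T) :=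
    (IntermediateField.inclusion (adjoin.mono ℚ S T h)).toRingHom.toAlgebra
  haveI : IsScalarTower (adjoin ℚ S) (adjoin ℚ T) ℂ := IsScalarTower.of_algebraMap_eq fun _ => rfl
  exact hz.tower_top _

theorem countable_acl {S : Set ℂ} (hS : S.Countable) : (acl S : Set ℂ).Countable := by
  haveI : Countable (adjoin ℚ S) := by
    rw [← Cardinal.mk_le_aleph0_iff]
    exact (cardinalMk_adjoin_le ℚ S).trans (by simp [hS])
  haveI : Module.IsTorsionFree (adjoin ℚ S) ℂ :=
    Module.IsTorsionFree.of_smul_eq_zero fun a z h => smul_eq_zero.1 h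
  exact (Algebraic.countable (adjoin ℚ S) ℂ).mono fun z hz => mem_acl.1 hz

/-- The closure contains what is algebraic over it. -/
theorem mem_of_isAlgebraic {S : Set ℂ} {z : ℂ} (h : IsAlgebraic (acl S) z) : z ∈ acl S := by
  obtain ⟨a, rfl⟩ := minpoly.mem_range_of_degree_eq_one (acl S) z
    (IsAlgClosed.degree_eq_one_of_irreducible (acl S) (minpoly.irreducible h.isIntegral))
  exact a.2

/-- Automorphisms of `ℂ` fixing a set. -/
def Fix (L : Set ℂ) : Set (ℂ ≃ₐ[ℚ] ℂ) := {e | ∀ a ∈ L, e a = a}

theorem fix_mono {L L' : Set ℂ} (h : L ⊆ L') : Fix L' ⊆ Fix L := fun _ he a ha => he a (h ha)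

theorem one_mem_fix (L : Set ℂ) : (1 : ℂ ≃ₐ[ℚ] ℂ) ∈ Fix L := fun _ _ => rfl

theorem mul_mem_fix {L : Set ℂ} {e e' : ℂ ≃ₐ[ℚ] ℂ} (h : e ∈ Fix L) (h' : e' ∈ Fix L) :
    e * e' ∈ Fix L := fun a ha => (congrArg e (h' a ha)).trans (h a ha)

theorem inv_mem_fix {L : Set ℂ} {e : ℂ ≃ₐ[ℚ] ℂ} (h : e ∈ Fix L) : e⁻¹ ∈ Fix L := fun a ha =>
  e.injective ((e.apply_symm_apply a).trans (h a ha).symm)

/-- Automorphisms of a subfield and permutations of a transcendence basis extend. -/
theorem exists_extension (M : IntermediateField ℚ ℂ) (τ : M ≃ₐ[ℚ] M) {s : Set ℂ}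
    (hs : IsTranscendenceBasis M (fun x : s => (x : ℂ))) (π : s ≃ s) :
    ∃ e : ℂ ≃ₐ[ℚ] ℂ, (∀ a : M, e a = τ a) ∧ ∀ i : s, e i = π i := by
  set v : s → ℂ := fun x => (x : ℂ)
  letI := IsAlgClosed.isAlgClosure_of_transcendence_basis v hs
  let e₀ : MvPolynomial s M ≃+* MvPolynomial s M :=
    (MvPolynomial.mapEquiv s τ.toRingEquiv).trans (MvPolynomial.renameEquiv M π).toRingEquiv
  let e : Algebra.adjoin M (Set.range v) ≃+* Algebra.adjoin M (Set.range v) :=
    hs.1.aevalEquiv.symm.toRingEquiv.trans (e₀.trans hs.1.aevalEquiv.toRingEquiv)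
  let σ : ℂ ≃+* ℂ := IsAlgClosure.equivOfEquiv ℂ ℂ e
  have hσ : ∀ p : MvPolynomial s M, σ (MvPolynomial.aeval v p) = MvPolynomial.aeval v (e₀ p) := by
    intro p
    have := IsAlgClosure.equivOfEquiv_algebraMap ℂ ℂ e (hs.1.aevalEquiv p)
    simpa [e, σ, AlgebraicIndependent.algebraMap_aevalEquiv] using this
  refine ⟨AlgEquiv.ofRingEquiv (f := σ) fun q => by rw [eq_ratCast, map_ratCast],
    fun a => ?_, fun i => ?_⟩
  · have h := hσ (MvPolynomial.C a)
    simp [e₀] at h
    exact h
  · have h := hσ (MvPolynomial.X i)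
    simp [e₀] at h
    exact h

theorem exists_extension' (M : IntermediateField ℚ ℂ) (τ : M ≃ₐ[ℚ] M) :
    ∃ e : ℂ ≃ₐ[ℚ] ℂ, ∀ a : M, e a = τ a := by
  obtain ⟨s, hs⟩ := exists_isTranscendenceBasis M ℂ
  obtain ⟨e, he, -⟩ := exists_extension M τ hs (Equiv.refl _)
  exact ⟨e, he⟩

/-- An element outside a subfield is moved by an automorphism fixing it. -/
theorem exists_move (k : IntermediateField ℚ ℂ) {z : ℂ} (hz : z ∉ k) :
    ∃ e ∈ Fix (k : Set ℂ), e z ≠ z := by
  by_cases halg : z ∈ algebraicClosure k ℂ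
  · set M := algebraicClosure k ℂ
    haveI : IsAlgClosure k M := algebraicClosure.isAlgClosure k ℂ
    haveI : Normal k M := IsAlgClosure.normal k M
    haveI : IsGalois k M := IsGalois.mk
    set z' : M := ⟨z, halg⟩
    have hne : z' ∉ (⊥ : IntermediateField k M) := by
      rintro hb
      obtain ⟨a, ha⟩ := IntermediateField.mem_bot.1 hb
      exact hz (by rw [show z = (a : ℂ) from congrArg Subtype.val ha.symm]; exact a.2)
    obtain ⟨τ, hτ⟩ : ∃ τ : M ≃ₐ[k] M, τ z' ≠ z' := by
      by_contra! h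
      exact hne ((InfiniteGalois.mem_bot_iff_fixed z').2 h)
    obtain ⟨e, he⟩ := exists_extension' (M.restrictScalars ℚ) (τ.restrictScalars ℚ)
    refine ⟨e, fun a ha => ?_, fun h => hτ (Subtype.ext ?_)⟩
    · exact (he (algebraMap k M ⟨a, ha⟩)).trans
        (congrArg Subtype.val (τ.commutes (⟨a, ha⟩ : k)))
    · exact (he z').symm.trans h
  · have hz' : z ∉ acl (k : Set ℂ) := by
      intro h
      rw [mem_acl] at h
      refine halg (mem_algebraicClosure_iff.2 ?_)
      letI : Algebra (adjoin ℚ (k : Set ℂ)) k :=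
        (IntermediateField.inclusion (adjoin_le_iff.2 subset_rfl)).toRingHom.toAlgebra
      haveI : IsScalarTower (adjoin ℚ (k : Set ℂ)) k ℂ := IsScalarTower.of_algebraMap_eq fun _ => rfl
      exact h.tower_top _
    obtain ⟨e, he, hz1⟩ := TorsionHom.exists_translation (acl (k : Set ℂ)).toSubfield hz'
    exact ⟨e, fun a ha => he a (subset_acl _ ha), by simp [hz1]⟩

/-- The fixed field of the automorphisms fixing a subfield is the subfield. -/
theorem mem_of_fixed (k : IntermediateField ℚ ℂ) {z : ℂ}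
    (h : ∀ e ∈ Fix (k : Set ℂ), e z = z) : z ∈ k := by
  by_contra hz
  obtain ⟨e, he, hne⟩ := exists_move k hz
  exact hne (h e he)

/-- An element with finitely many conjugates over an algebraically closed subfield lies in it. -/
theorem mem_of_finite_orbit (S : Set ℂ) {z : ℂ}
    (h : ((fun e : ℂ ≃ₐ[ℚ] ℂ => e z) '' Fix (acl S : Set ℂ)).Finite) : z ∈ acl S := by
  by_contra hz
  obtain ⟨e, he, hz1⟩ := TorsionHom.exists_translation (acl S).toSubfield hz
  refine Set.infinite_of_injective_forall_mem (f := fun k : ℕ => z + k) ?_ (fun k => ?_) h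
  · intro a b hab
    exact_mod_cast add_left_cancel hab
  · induction k with
    | zero => exact ⟨1, one_mem_fix _, by simp⟩
    | succ k ih =>
        obtain ⟨e', he', hk⟩ := ih
        refine ⟨e * e', mul_mem_fix (fun a ha => he a ha) he', ?_⟩
        show e (e' z) = _
        rw [show e' z = z + k from hk, map_add, map_natCast, hz1]
        push_cast
        ring

/-- Two independent elements are exchanged by an automorphism fixing the subfield. -/
theorem exists_map (S : Set ℂ) {a b : ℂ} (ha : a ∉ acl S) (hb : b ∉ acl (insert a S)) :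
    ∃ e ∈ Fix (acl S : Set ℂ), e a = b := by
  classical
  set L := acl S
  have h1 : AlgebraicIndependent L ((↑) : ({a} : Set ℂ) → ℂ) := by
    rw [algebraicIndependent_singleton_iff ⟨a, rfl⟩]
    exact fun halg => ha (mem_of_isAlgebraic halg)
  have h2 : AlgebraicIndepOn L id ({b, a} : Set ℂ) := by
    have hba : b ∉ ({a} : Set ℂ) := fun h => hb (subset_acl _ (by simp_all))
    refine (AlgebraicIndepOn.insert_iff hba).2 ⟨h1, fun halg => hb ?_⟩
    rw [Set.image_id] at halg
    refine mem_of_isAlgebraic ?_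
    have hsub : ∀ x ∈ Algebra.adjoin L ({a} : Set ℂ), x ∈ acl (insert a S) := fun x hx => by
      induction hx using Algebra.adjoin_induction with
      | mem x hx => exact subset_acl _ (by simp_all)
      | algebraMap r => exact acl_mono (Set.subset_insert a S) r.2
      | add _ _ _ _ h1 h2 => exact add_mem h1 h2
      | mul _ _ _ _ h1 h2 => exact mul_mem h1 h2
    let i : Algebra.adjoin L ({a} : Set ℂ) →+* acl (insert a S) :=
      { toFun := fun x => ⟨x.1, hsub x.1 x.2⟩
        map_one' := rfl, map_zero' := rfl, map_add' := fun _ _ => rfl, map_mul' := fun _ _ => rfl }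
    letI := i.toAlgebra
    haveI : IsScalarTower (Algebra.adjoin L ({a} : Set ℂ)) (acl (insert a S)) ℂ :=
      IsScalarTower.of_algebraMap_eq fun _ => rfl
    have hinj : Function.Injective i := fun x y h =>
      Subtype.ext (congrArg (fun w : acl (insert a S) => (w : ℂ)) h :)
    exact halg.extendScalars hinj
  obtain ⟨s, hsub, hs⟩ := exists_isTranscendenceBasis_superset h2
  have has : a ∈ s := hsub (by simp)
  have hbs : b ∈ s := hsub (by simp)
  obtain ⟨e, he, hπ⟩ := exists_extension L AlgEquiv.refl hs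
    (Equiv.swap (⟨a, has⟩ : s) ⟨b, hbs⟩)
  exact ⟨e, fun x hx => he ⟨x, hx⟩, by simpa using hπ ⟨a, has⟩⟩

/-- An automorphism-closed count: `m` independent elements are not algebraic over fewer. -/
theorem card_le_of_mem_acl {m : ℕ} {x : Fin m → ℂ} (hx : AlgebraicIndependent ℚ x)
    {Y : Finset ℂ} (h : ∀ i, x i ∈ acl (Y : Set ℂ)) : m ≤ Y.card := by
  classical
  set A := Algebra.adjoin ℚ (Y : Set ℂ)
  let E := acl (Y : Set ℂ)
  letI instE : Algebra ℚ E := E.algebra'
  let y : Y → E := fun v => ⟨v, subset_acl _ v.2⟩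
  have hx' : AlgebraicIndependent ℚ (fun i => (⟨x i, h i⟩ : E)) :=
    AlgebraicIndependent.of_comp E.val hx
  have halg : Algebra.IsAlgebraic (Algebra.adjoin ℚ (Set.range y)) E := by
    refine ⟨fun z => ?_⟩
    have h1 : IsAlgebraic A (z : ℂ) := IntermediateField.isAlgebraic_adjoin_iff.1 (mem_acl.1 z.2)
    have hmap : (Algebra.adjoin ℚ (Set.range y)).map E.val = A := by
      rw [AlgHom.map_adjoin, ← Set.range_comp]
      congr 1
      ext v; simp [y]
    let g : Algebra.adjoin ℚ (Set.range y) ≃ₐ[ℚ] A :=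
      ((Algebra.adjoin ℚ (Set.range y)).equivMapOfInjective E.val Subtype.val_injective).trans
        (Subalgebra.equivOfEq _ _ hmap)
    refine (isAlgebraic_ringHom_iff_of_comp_eq g (algebraMap E ℂ) Subtype.val_injective ?_).1 h1
    ext w; rfl
  have h1 : Algebra.trdeg ℚ E ≤ #(Set.range y) :=
    Algebra.IsAlgebraic.trdeg_le_cardinalMk ℚ (Set.range y)
  have h2 := hx'.cardinalMk_le_trdeg
  have h3 : #(Set.range y) ≤ (Y.card : Cardinal) := Cardinal.mk_range_le.trans (by simp)
  simpa using (h2.trans h1).trans h3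

/-- Extending an independent family by an element outside the algebraic closure. -/
theorem indep_snoc {m : ℕ} {x : Fin m → ℂ} (hx : AlgebraicIndependent ℚ x) {a : ℂ}
    (ha : a ∉ acl (Set.range x)) : AlgebraicIndependent ℚ (Fin.snoc x a) := by
  have h1 : AlgebraicIndependent ℚ (fun o : Option (Fin m) => o.elim a x) :=
    (hx.option_iff_transcendental a).2 fun h => ha (mem_acl.2 (IntermediateField.isAlgebraic_adjoin_iff.2 h))
  have h2 : (fun o : Option (Fin m) => o.elim a x) ∘ finSuccEquivLast = Fin.snoc x a := by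
    funext i
    induction i using Fin.lastCases <;> simp
  rw [← h2]
  exact h1.comp _ finSuccEquivLast.injective

/-- A complex vector space of finite dimension is not a countable union of proper subspaces. -/
theorem exists_notMem_countable {V ι : Type*} [AddCommGroup V] [Module ℂ V]
    [FiniteDimensional ℂ V] [Countable ι] (p : ι → Submodule ℂ V) (h : ∀ i, p i ≠ ⊤) :
    ∃ x, ∀ i, x ∉ p i := by
  set b := Module.finBasis ℂ V
  let v : ℂ → V := fun t => ∑ i : Fin (Module.finrank ℂ V), t ^ (i : ℕ) • b i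
  have hfin : ∀ i, {t | v t ∈ p i}.Finite := by
    intro i
    obtain ⟨φ, hφ, hle⟩ := Submodule.exists_le_ker_of_lt_top _ (lt_top_iff_ne_top.2 (h i))
    let q : Polynomial ℂ := ∑ j, Polynomial.C (φ (b j)) * Polynomial.X ^ (j : ℕ)
    have hq : q ≠ 0 := fun h0 => hφ (b.ext fun j => by
      have := congrArg (fun r : Polynomial ℂ => r.coeff (j : ℕ)) h0
      simp only [q, Polynomial.finsetSum_coeff, Polynomial.coeff_C_mul, Polynomial.coeff_X_pow,
        Polynomial.coeff_zero] at this
      rw [Finset.sum_eq_single j (fun i _ hi => by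
        rw [if_neg (fun h => hi (Fin.ext h).symm), mul_zero]) (by simp), if_pos rfl, mul_one] at this
      exact this.trans (LinearMap.zero_apply (b j)).symm)
    refine q.roots.toFinset.finite_toSet.subset fun t ht => ?_
    have h1 : φ (v t) = 0 := hle ht
    have h2 : q.eval t = φ (v t) := by
      simp only [q, v, Polynomial.eval_finsetSum, Polynomial.eval_mul, Polynomial.eval_C,
        Polynomial.eval_pow, Polynomial.eval_X, map_sum, map_smul, smul_eq_mul]
      exact Finset.sum_congr rfl fun j _ => mul_comm _ _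
    simpa [hq] using h2.trans h1
  obtain ⟨t, ht⟩ : ∃ t, t ∉ ⋃ i, {t | v t ∈ p i} := by
    by_contra! hall
    refine not_countable_complex ?_
    exact (Set.countable_iUnion fun i => (hfin i).countable).mono fun t _ => hall t
  exact ⟨v t, fun i hi => ht (Set.mem_iUnion.2 ⟨i, hi⟩)⟩

end FLTAgent.Divisible

namespace FLTAgent.Divisible

open IntermediateField

theorem acl_le {S T : Set ℂ} (h : S ⊆ acl T) : acl S ≤ acl T := by
  intro z hz
  refine mem_of_isAlgebraic ?_
  letI : Algebra (adjoin ℚ S) (acl T) :=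
    (IntermediateField.inclusion (adjoin_le_iff.2 h)).toRingHom.toAlgebra
  haveI : IsScalarTower (adjoin ℚ S) (acl T) ℂ := IsScalarTower.of_algebraMap_eq fun _ => rfl
  exact (mem_acl.1 hz).tower_top _

end FLTAgent.Divisible
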