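import Fermat.Agent.Divisible.Complex
import Fermat.Agent.TorsionHom.Interp

/-!
# From the algebraic numbers to the complex numbers
-/

set_option autoImplicit false

noncomputable section

namespace FLTAgent.Divisible

set_option linter.unusedSectionVars false

instance instIsAlgebraicQbar : Algebra.IsAlgebraic ℚ (AlgebraicClosure ℚ) :=
  AlgebraicClosure.isAlgebraic ℚ

open AlgebraicCurve FLTAgent.X0Fn FLTAgent.Curves FLTAgent.Specialization
open ModularCurve (coeffMap coeffEmb)

/-- The embedding of the algebraic numbers. -/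
def kap : AlgebraicClosure ℚ →+* ℂ :=
  (IsAlgClosed.lift (M := ℂ) (R := ℚ) (S := AlgebraicClosure ℚ)).toRingHom

theorem mem_acl_empty {z : ℂ} : z ∈ acl (∅ : Set ℂ) ↔ ∃ a, kap a = z := by
  set φ : AlgebraicClosure ℚ →ₐ[ℚ] ℂ := IsAlgClosed.lift
  constructor
  · intro hz
    have h1 : IsAlgebraic ℚ z := by
      have h2 : IsAlgebraic (IntermediateField.adjoin ℚ (∅ : Set ℂ)) z := mem_acl.1 hz
      haveI : Algebra.IsAlgebraic ℚ (IntermediateField.adjoin ℚ (∅ : Set ℂ)) :=
        IntermediateField.isAlgebraic_adjoin fun x hx => absurd hx (Set.notMem_empty x)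
      exact h2.restrictScalars ℚ
    have hint := h1.isIntegral
    have hsp : (Polynomial.map (algebraMap ℚ (AlgebraicClosure ℚ)) (minpoly ℚ z)).Splits :=
      IsAlgClosed.splits _
    have hdeg : (Polynomial.map (algebraMap ℚ (AlgebraicClosure ℚ)) (minpoly ℚ z)).degree ≠ 0 := by
      rw [Polynomial.degree_map]; exact (minpoly.degree_pos hint).ne'
    have hmem : z ∈ ((minpoly ℚ z).rootSet (AlgebraicClosure ℚ)).image φ := by
      rw [hsp.image_rootSet φ, Polynomial.mem_rootSet]
      exact ⟨minpoly.ne_zero hint, minpoly.aeval ℚ z⟩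
    obtain ⟨a, -, ha⟩ := hmem
    exact ⟨a, (ha : φ a = z)⟩
  · rintro ⟨a, rfl⟩
    exact mem_acl.2 (((Algebra.IsAlgebraic.isAlgebraic (R := ℚ) a).algHom φ).tower_top _)

variable {N : ℕ} [NeZero N]

local notation "FQ" => XF (AlgebraicClosure ℚ) N
local notation "FC" => XF ℂ N
local notation "jC" => jF ℂ N

instance instIsFunctionFieldQ : IsFunctionField (AlgebraicClosure ℚ) (XF (AlgebraicClosure ℚ) N) :=
  (isFunctionField_and_finrank (N := N) kap).1

theorem coeffMap_mem {y : LaurentSeries (AlgebraicClosure ℚ)}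
    (hy : y ∈ XF (AlgebraicClosure ℚ) N) : coeffMap kap y ∈ XF ℂ N := by
  rw [XF_eq_adjoin] at hy
  induction hy using IntermediateField.adjoin_induction with
  | mem x hx =>
      obtain ⟨q, hq, rfl⟩ := hx
      rw [coeffEmb, ModularCurve.coeffMap_coeffMap,
        ModularCurve.coeffMap_congr (g := algebraMap ℚ ℂ) (Subsingleton.elim _ _) q]
      rw [XF_eq_adjoin]
      exact IntermediateField.subset_adjoin ℂ _ ⟨q, hq, rfl⟩
  | algebraMap a =>
      rw [ModularCurve.algebraMap_laurentSeries_eq_single, ModularCurve.coeffMap_single,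
        ← ModularCurve.algebraMap_laurentSeries_eq_single]
      exact IntermediateField.algebraMap_mem _ _
  | add _ _ _ _ h1 h2 => rw [map_add]; exact add_mem h1 h2
  | inv _ _ h => rw [map_inv₀]; exact inv_mem h
  | mul _ _ _ _ h1 h2 => rw [map_mul]; exact mul_mem h1 h2

variable (N) in
/-- The inclusion of function fields. -/
def emb : XF (AlgebraicClosure ℚ) N →+* XF ℂ N where
  toFun y := ⟨coeffMap kap y.1, coeffMap_mem y.2⟩
  map_one' := Subtype.ext (map_one _)
  map_zero' := Subtype.ext (map_zero _)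
  map_add' _ _ := Subtype.ext (map_add _ _ _)
  map_mul' _ _ := Subtype.ext (map_mul _ _ _)

theorem emb_algebraMap (a : AlgebraicClosure ℚ) :
    emb N (algebraMap (AlgebraicClosure ℚ) FQ a) = algebraMap ℂ FC (kap a) :=
  Subtype.ext (by
    show coeffMap kap (algebraMap _ (LaurentSeries _) a) = algebraMap ℂ (LaurentSeries ℂ) (kap a)
    rw [ModularCurve.algebraMap_laurentSeries_eq_single, ModularCurve.coeffMap_single,
      ModularCurve.algebraMap_laurentSeries_eq_single])

theorem emb_jF : emb N (jF (AlgebraicClosure ℚ) N) = jC := by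
  refine Subtype.ext ?_
  show coeffMap kap (coeffEmb (AlgebraicClosure ℚ) ModularCurve.jq) = coeffEmb ℂ ModularCurve.jq
  rw [coeffEmb, ModularCurve.coeffMap_coeffMap]
  exact ModularCurve.coeffMap_congr (Subsingleton.elim _ _) _

theorem rat_emb (y : FQ) : Rat (acl (∅ : Set ℂ) : Set ℂ) (emb N y) := fun i =>
  mem_acl_empty.2 ⟨_, (ModularCurve.coeffMap_coeff kap y.1 i).symm⟩

theorem exists_emb {x : FC} (hx : Rat (acl (∅ : Set ℂ) : Set ℂ) x) : ∃ y, emb N y = x := by
  choose c hc using fun i => mem_acl_empty.1 (hx i)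
  have hsupp : BddBelow (Function.support c) := ⟨(x : LaurentSeries ℂ).order, fun k hk =>
    HahnSeries.order_le_of_coeff_ne_zero (by rw [← hc]; exact (_root_.map_ne_zero kap).2 hk)⟩
  set w : LaurentSeries (AlgebraicClosure ℚ) := HahnSeries.ofSuppBddBelow c hsupp
  have hw : coeffMap kap w = (x : LaurentSeries ℂ) :=
    HahnSeries.ext (funext fun k => (ModularCurve.coeffMap_coeff kap w k).trans (hc k))
  obtain ⟨A, B, hB, hAB⟩ :=
    (TorsionHom.mem_ratField (RingHom.id ℂ)).1 (TorsionHom.XF_le_ratField (RingHom.id ℂ) x.2)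
  have hiota : iota (N := N) kap w = iota (N := N) (RingHom.id ℂ) (x : LaurentSeries ℂ) := by
    rw [iota, iota, RingHom.comp_apply, RingHom.comp_apply, hw, ModularCurve.coeffMap_id]
  rw [← hiota] at hAB
  exact ⟨⟨w, TorsionHom.mem_XF_of_W0 kap hB hAB⟩, Subtype.ext hw⟩

/-- Points over the algebraic numbers. -/
def Algebraic' (w : Place ℂ FC) : Prop := Special (∅ : Set ℂ) w

theorem special_cusp : Algebraic' (cusp N) := fun h => absurd h not_affine_cusp

theorem comap_ne_top {w : Place ℂ FC} (hw : Algebraic' w) :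
    w.toValuationSubring.comap (emb N) ≠ ⊤ := by
  intro htop
  have h : ∀ y : FQ, OrdGE w 0 (emb N y) := fun y => by
    have h1 : y ∈ w.toValuationSubring.comap (emb N) := htop ▸ ValuationSubring.mem_top y
    exact ordGE_zero_iff_mem.2 h1
  by_cases hA : Affine w
  · obtain ⟨a, ha⟩ := mem_acl_empty.1 (hw hA)
    set y : FQ := jF (AlgebraicClosure ℚ) N - algebraMap (AlgebraicClosure ℚ) FQ a
    have hy : emb N y = jC - algebraMap ℂ FC (jval w) := by
      rw [map_sub, emb_jF, emb_algebraMap, ha]
    have h1 := h y⁻¹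
    rw [map_inv₀, hy] at h1
    have hne := ne_zero_of_transcendental (transcendental_sub (transcendental_jC (N := N)) (jval w))
    have h2 := h1.le_ord (inv_ne_zero hne)
    have h3 := hA.ordGE.le_ord hne
    rw [w.ord_inv] at h2
    omega
  · have h1 := h (jF (AlgebraicClosure ℚ) N)
    rw [emb_jF] at h1
    exact hA (h1.le_ord (ne_zero_of_transcendental transcendental_jC))

/-- The point over the algebraic numbers below an algebraic point. -/
def below (w : {w : Place ℂ FC // Algebraic' w}) : Place (AlgebraicClosure ℚ) FQ :=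
  placeOfValuationSubring (w.1.toValuationSubring.comap (emb N))
    (fun a => by
      show emb N (algebraMap (AlgebraicClosure ℚ) FQ a) ∈ w.1.toValuationSubring
      rw [emb_algebraMap]; exact w.1.algebraMap_mem' _)
    (comap_ne_top w.2)

theorem mem_below {w : {w : Place ℂ FC // Algebraic' w}} {y : FQ} :
    y ∈ (below w).toValuationSubring ↔ emb N y ∈ w.1.toValuationSubring := Iff.rfl

theorem exists_rat_exact {D : Divisor ℂ FC} {m : ℤ}
    (hD : D ≤ Finsupp.single (cusp N) m) (hdeg : rBound ℂ FC + 1 ≤ Divisor.degree D)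
    (hs : ∀ e ∈ Fix (acl (∅ : Set ℂ) : Set ℂ), gal N e • D = D) (Q : Place ℂ FC) :
    ∃ x : FC, x ∈ riemannRochSpace D ∧ Rat (acl (∅ : Set ℂ) : Set ℂ) x ∧ x ≠ 0 ∧
      Q.ord x = -D Q := by
  obtain ⟨f, hf, hfQ⟩ := exists_exact hdeg Q
  obtain ⟨x, ⟨hx, hrat⟩, hxQ⟩ :=
    not_ordGE_of_mem_span (le_span_rat_of_stable _ hD (fun e _ => gal_single_cusp e m) hs hf) hfQ
  have := (exact_iff hx).1 hxQ
  exact ⟨x, hx, hrat, this.1, this.2⟩

/-- Rational functions separate algebraic points, with multiplicity one. -/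
theorem exists_sep (w w' : Place ℂ FC) (hw : Algebraic' w) :
    ∃ y : FQ, y ≠ 0 ∧ (w' = w → w.ord (emb N y) = 1) ∧
      (w' ≠ w → w'.ord (emb N y) < w.ord (emb N y)) := by
  set m : ℤ := rBound ℂ FC + 2
  set G : Divisor ℂ FC := Finsupp.single (cusp N) m
  have hfix : ∀ e ∈ Fix (acl (∅ : Set ℂ) : Set ℂ), gal N e • (G - Finsupp.single w 1) =
      G - Finsupp.single w 1 := fun e he => by
    rw [smul_sub, gal_single_cusp, SemilinearAut.smul_single, gal_eq_of_special hw he]
  have hle : G - Finsupp.single w 1 ≤ G := fun P => by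
    rw [Finsupp.sub_apply]
    rcases eq_or_ne P w with rfl | h
    · rw [Finsupp.single_eq_same]; omega
    · rw [Finsupp.single_eq_of_ne h, sub_zero]
  obtain ⟨x₁, hx₁, hr₁, hx₁0, ho₁⟩ := exists_rat_exact hle
    (by rw [map_sub, degree_single', degree_single']; omega) hfix w'
  obtain ⟨x₂, hx₂, hr₂, hx₂0, ho₂⟩ := exists_rat_exact (le_refl G)
    (by rw [degree_single']; omega) (fun e _ => gal_single_cusp e m) w
  obtain ⟨y₁, rfl⟩ := exists_emb hr₁
  obtain ⟨y₂, rfl⟩ := exists_emb hr₂
  have hy₁ : y₁ ≠ 0 := fun h => hx₁0 (by rw [h, map_zero])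
  have hy₂ : y₂ ≠ 0 := fun h => hx₂0 (by rw [h, map_zero])
  have hord : ∀ P : Place ℂ FC, P.ord (emb N (y₁ / y₂)) =
      P.ord (emb N y₁) - P.ord (emb N y₂) := fun P => by
    rw [map_div₀, ord_div P hx₁0 hx₂0]
  refine ⟨y₁ / y₂, div_ne_zero hy₁ hy₂, fun h => ?_, fun h => ?_⟩
  · subst h
    rw [hord, ho₁, ho₂, Finsupp.sub_apply, Finsupp.single_eq_same]
    omega
  · have h1 := (mem_rrSpace.1 hx₁ w).le_ord hx₁0
    have h2 := (mem_rrSpace.1 hx₂ w').le_ord hx₂0
    rw [Finsupp.sub_apply, Finsupp.single_eq_same] at h1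
    rw [Finsupp.sub_apply, Finsupp.single_eq_of_ne h, sub_zero] at ho₁
    rw [hord, hord, ho₁, ho₂]
    omega

theorem ord_emb (w : {w : Place ℂ FC // Algebraic' w}) (y : FQ) :
    w.1.ord (emb N y) = (below w).ord y := by
  obtain ⟨π, hπ⟩ := IsDiscreteValuationRing.exists_irreducible (below w).toValuationSubring
  have hπ0 : (π : FQ) ≠ 0 := by simpa using hπ.ne_zero
  have hscale : ∀ y : FQ, y ≠ 0 →
      w.1.ord (emb N y) = (below w).ord y * w.1.ord (emb N π) := by
    intro y hy
    obtain ⟨u, hu⟩ := (below w).exists_unit_mul_zpow hy hπ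
    set n := (below w).ord y
    have h1 : emb N ((u : (below w).toValuationSubring) : FQ) ∈ w.1.toValuationSubring :=
      mem_below.1 (u : (below w).toValuationSubring).2
    have h2 : emb N (((u⁻¹ : (below w).toValuationSubringˣ) : (below w).toValuationSubring) : FQ) ∈
        w.1.toValuationSubring :=
      mem_below.1 ((u⁻¹ : (below w).toValuationSubringˣ) : (below w).toValuationSubring).2
    have hu0 : ((u : (below w).toValuationSubring) : FQ) ≠ 0 := by simp
    have hinv : (((u⁻¹ : (below w).toValuationSubringˣ) : (below w).toValuationSubring) : FQ) =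
        ((u : (below w).toValuationSubring) : FQ)⁻¹ := by
      refine eq_inv_of_mul_eq_one_left ?_
      rw [← MulMemClass.coe_mul, Units.inv_mul, OneMemClass.coe_one]
    rw [hinv, map_inv₀] at h2
    have hne : emb N ((u : (below w).toValuationSubring) : FQ) ≠ 0 := (_root_.map_ne_zero _).2 hu0
    have h3 := (mem_iff_ord_nonneg hne).1 h1
    have h4 := (mem_iff_ord_nonneg (inv_ne_zero hne)).1 h2
    rw [w.1.ord_inv] at h4
    rw [hu, map_mul, w.1.ord_mul hne ((_root_.map_ne_zero _).2 (zpow_ne_zero _ hπ0)), map_zpow₀,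
      w.1.ord_zpow]
    rw [show w.1.ord (emb N ((u : (below w).toValuationSubring) : FQ)) = 0 by omega, zero_add]
  have hπnn : 0 ≤ w.1.ord (emb N π) :=
    (mem_iff_ord_nonneg ((_root_.map_ne_zero _).2 hπ0)).1 (mem_below.1 π.2)
  obtain ⟨s, hs0, hs1, -⟩ := exists_sep w.1 w.1 w.2
  have h1 := hscale s hs0
  rw [hs1 rfl] at h1
  have hone : w.1.ord (emb N π) = 1 := by
    rcases Int.eq_one_or_neg_one_of_mul_eq_one' h1.symm with ⟨_, h⟩ | ⟨_, h⟩
    · exact h
    · omega
  rcases eq_or_ne y 0 with rfl | hy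
  · simp
  · rw [hscale y hy, hone, mul_one]

theorem below_injective : Function.Injective (below (N := N)) := by
  intro w w' h
  by_contra hne
  obtain ⟨y, -, -, hlt⟩ := exists_sep w.1 w'.1 w.2
  have := hlt fun e => hne (Subtype.ext e.symm)
  rw [ord_emb, ord_emb, h] at this
  exact lt_irrefl _ this

theorem below_surjective : Function.Surjective (below (N := N)) := by
  intro v
  set m : ℤ := rBound (AlgebraicClosure ℚ) FQ + 1
  have hm := rBound_nonneg (K := AlgebraicClosure ℚ) (F := FQ)
  obtain ⟨y, hy, hyv⟩ := exists_exact (G := Finsupp.single v m) (by rw [degree_single']) v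
  obtain ⟨hy0, hord⟩ := (exact_iff hy).1 hyv
  rw [Finsupp.single_eq_same] at hord
  have hytr : Transcendental ℂ (emb N y) := by
    refine transcendental_of_ne_algebraMap fun a ha => ?_
    obtain ⟨b, hb⟩ := mem_acl_empty.1 (show a ∈ acl (∅ : Set ℂ) by
      have h0 := rat_emb y 0
      rw [ha] at h0
      simpa [ModularCurve.algebraMap_laurentSeries_eq_single] using h0)
    have hy1 : y = algebraMap (AlgebraicClosure ℚ) FQ b :=
      (emb N).injective (by rw [ha, emb_algebraMap, hb])
    rw [hy1, ord_algebraMap] at hord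
    omega
  obtain ⟨w, hw⟩ := exists_ord_pos (transcendental_inv hytr)
  rw [w.ord_inv] at hw
  have hwA : Algebraic' w := special_of_ord_ne_zero (fun e he => (rat_emb y).gal_eq he) (by omega)
  refine ⟨⟨w, hwA⟩, ?_⟩
  by_contra hne
  have h1 := (mem_rrSpace.1 hy (below ⟨w, hwA⟩)).le_ord hy0
  rw [Finsupp.single_eq_of_ne hne, neg_zero] at h1
  have h2 := ord_emb ⟨w, hwA⟩ y
  simp only at h2
  omega

variable (N) in
/-- The point over `ℂ` above a point over the algebraic numbers. -/
def above (v : Place (AlgebraicClosure ℚ) (XF (AlgebraicClosure ℚ) N)) : Place ℂ (XF ℂ N) :=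
  (Function.surjInv below_surjective v).1

theorem above_algebraic (v : Place (AlgebraicClosure ℚ) FQ) : Algebraic' (above N v) :=
  (Function.surjInv below_surjective v).2

theorem above_below (w : Place ℂ FC) (hw : Algebraic' w) : above N (below ⟨w, hw⟩) = w :=
  congrArg Subtype.val (below_injective
    (Function.surjInv_eq below_surjective (below (⟨w, hw⟩ : {w // Algebraic' w}))))

theorem above_injective : Function.Injective (above N) := fun a b h => by
  have := congrArg (below (N := N)) (Subtype.ext h :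
    Function.surjInv below_surjective a = Function.surjInv below_surjective b)
  rwa [Function.surjInv_eq below_surjective, Function.surjInv_eq below_surjective] at this

theorem ord_above (v : Place (AlgebraicClosure ℚ) FQ) (y : FQ) :
    (above N v).ord (emb N y) = v.ord y := by
  have h := ord_emb (Function.surjInv below_surjective v) y
  rwa [Function.surjInv_eq below_surjective] at h

variable (N) in
/-- Extension of divisors. -/
def liftDiv : Divisor (AlgebraicClosure ℚ) (XF (AlgebraicClosure ℚ) N) →+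
    Divisor ℂ (XF ℂ N) :=
  Finsupp.mapDomain.addMonoidHom (above N)

theorem degree_liftDiv (D : Divisor (AlgebraicClosure ℚ) FQ) :
    Divisor.degree (liftDiv N D) = Divisor.degree D := by
  induction D using Finsupp.induction with
  | zero => simp
  | single_add v n D _ _ ih =>
      rw [map_add, map_add, map_add, ih]
      congr 1
      show Divisor.degree (Finsupp.mapDomain (above N) (Finsupp.single v n)) = _
      rw [Finsupp.mapDomain_single, degree_single', degree_single']

theorem liftDiv_above (D : Divisor (AlgebraicClosure ℚ) FQ) (v : Place (AlgebraicClosure ℚ) FQ) :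
    liftDiv N D (above N v) = D v :=
  Finsupp.mapDomain_apply above_injective D v

theorem liftDiv_of_not (D : Divisor (AlgebraicClosure ℚ) FQ) {w : Place ℂ FC}
    (hw : ¬ Algebraic' w) : liftDiv N D w = 0 :=
  Finsupp.mapDomain_notin_range D w fun ⟨v, hv⟩ => hw (hv ▸ above_algebraic v)

theorem liftDiv_divOf (y : FQ) :
    liftDiv N (divOf (AlgebraicClosure ℚ) y) = divOf ℂ (emb N y) := by
  refine Finsupp.ext fun w => ?_
  by_cases hw : Algebraic' w
  · rw [← above_below w hw, liftDiv_above, divOf_apply, divOf_apply, ord_above]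
  · rw [liftDiv_of_not _ hw, divOf_apply]
    exact (not_not.1 fun h => hw (special_of_ord_ne_zero
      (fun e he => (rat_emb y).gal_eq he) h)).symm

theorem gal_liftDiv {e : ℂ ≃ₐ[ℚ] ℂ} (he : e ∈ Fix (acl (∅ : Set ℂ) : Set ℂ))
    (D : Divisor (AlgebraicClosure ℚ) FQ) : gal N e • liftDiv N D = liftDiv N D := by
  refine Finsupp.ext fun w => ?_
  rw [SemilinearAut.divisor_smul_apply]
  by_cases hw : Algebraic' w
  · rw [show (gal N e)⁻¹ • w = w from inv_smul_eq_iff.2 (gal_eq_of_special hw he).symm]
  · rw [liftDiv_of_not _ hw, liftDiv_of_not]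
    intro h
    refine hw ?_
    have h1 : gal N e • ((gal N e)⁻¹ • w) = w := smul_inv_smul _ _
    rw [gal_eq_of_special h he] at h1
    exact h1 ▸ h

/-- A divisor over the algebraic numbers principal over `ℂ` is principal. -/
theorem isPrincipal_of_liftDiv {D : Divisor (AlgebraicClosure ℚ) FQ} {f : FC} (hf : f ≠ 0)
    (h : liftDiv N D = divOf ℂ f) : Divisor.IsPrincipal D := by
  have hdeg : Divisor.degree (liftDiv N D) = 0 := by rw [h, degree_divOf]
  have hfm : f ∈ riemannRochSpace (-liftDiv N D) := mem_rrSpace.2 fun w => ordGE_of_le (by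
    rw [h, Finsupp.neg_apply, divOf_apply, neg_neg])
  obtain ⟨x, ⟨hx, hrat⟩, hx0⟩ : ∃ x ∈ {x | x ∈ riemannRochSpace (-liftDiv N D) ∧
      Rat (acl (∅ : Set ℂ) : Set ℂ) x}, x ≠ 0 := by
    by_contra! hall
    have h1 := le_span_rat_of_stable (acl (∅ : Set ℂ)) (le_refl (-liftDiv N D))
      (fun e he => by rw [smul_neg, gal_liftDiv he]) (fun e he => by rw [smul_neg, gal_liftDiv he])
      hfm
    rw [Submodule.span_eq_bot.2 hall] at h1
    exact hf ((Submodule.mem_bot ℂ).1 h1)
  obtain ⟨y, rfl⟩ := exists_emb hrat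
  have hle : liftDiv N D ≤ divOf ℂ (emb N y) := fun w => by
    have h2 := (mem_rrSpace.1 hx w).le_ord hx0
    rw [Finsupp.neg_apply, neg_neg] at h2
    rwa [divOf_apply]
  have heq := eq_of_le_of_degree_le hle (by rw [degree_divOf, hdeg])
  rw [← liftDiv_divOf] at heq
  refine ⟨y, fun h0 => hx0 (by rw [h0, map_zero]), fun v => ?_⟩
  rw [← liftDiv_above D v, heq, liftDiv_above, divOf_apply]

end FLTAgent.Divisible
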