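import Fermat.Agent.Divisible.Transitive

/-!
# Classes of divisors relative to the cusp
-/

set_option autoImplicit false

noncomputable section

namespace FLTAgent.Divisible

set_option linter.unusedSectionVars false

open AlgebraicCurve FLTAgent.X0Fn FLTAgent.Curves FLTAgent.Specialization

variable {N : ℕ} [NeZero N]

local notation "FC" => XF ℂ N

/-- A point with finitely many conjugates over an algebraically closed subfield is fixed. -/
theorem gal_eq_of_special {S : Set ℂ} {v : Place ℂ FC} (h : Special S v) {e : ℂ ≃ₐ[ℚ] ℂ}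
    (he : e ∈ Fix (acl S : Set ℂ)) : gal N e • v = v := by
  classical
  set G : Divisor ℂ FC := Finsupp.single (cusp N) (rBound ℂ FC + 2) with hG
  set D : Divisor ℂ FC := G - Finsupp.single v 1 with hD
  have hsm : ∀ e, gal N e • D = G - Finsupp.single (gal N e • v) 1 := fun e => by
    rw [hD, smul_sub, hG, gal_single_cusp, SemilinearAut.smul_single]
  have hdeg : rBound ℂ FC + 1 ≤ Divisor.degree D := by
    rw [hD, map_sub, hG, degree_single', degree_single']; omega
  have hle : D ≤ G := fun P => by
    rw [hD, Finsupp.sub_apply]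
    rcases eq_or_ne P v with rfl | h
    · rw [Finsupp.single_eq_same]; omega
    · rw [Finsupp.single_eq_of_ne h, sub_zero]
  have hspan := le_span_rat_of_finite S hle (fun e _ => gal_single_cusp e _)
    (((finite_orbit_of_special h).image fun P => G - Finsupp.single P 1).subset (by
      rintro _ ⟨e, he, rfl⟩
      exact ⟨_, ⟨e, he, rfl⟩, (hsm e).symm⟩))
  have h1 : riemannRochSpace D ≤ riemannRochSpace (gal N e • D) := by
    refine hspan.trans (Submodule.span_le.2 ?_)
    rintro x ⟨hx, hrat⟩
    have h2 : gal N e • x ∈ (riemannRochSpace (gal N e • D) : Set FC) :=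
      galSet_rrSpace e D ▸ ⟨x, hx, rfl⟩
    rwa [hrat.gal_eq he] at h2
  have h2 := le_of_rrSpace_le h1 hdeg (gal N e • v)
  rw [hsm, hD] at h2
  by_contra hne
  have e1 := Finsupp.single_eq_of_ne (b := (1 : ℤ)) hne
  have e2 : Finsupp.single (gal N e • v) (1 : ℤ) (gal N e • v) = 1 := Finsupp.single_eq_same
  rw [Finsupp.sub_apply, Finsupp.sub_apply, e1, e2] at h2
  omega

/-- The class of a divisor, normalised at the cusp. -/
def cls : Divisor ℂ FC →+ Pic0 ℂ FC where
  toFun D := Pic0.mk ⟨D - Finsupp.single (cusp N) (Divisor.degree D), by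
    rw [Divisor.mem_degZero, map_sub, degree_single', sub_self]⟩
  map_zero' := (congrArg Pic0.mk (Subtype.ext (by simp))).trans Pic0.mk_zero
  map_add' D E := by
    rw [← Pic0.mk_add]
    refine congrArg Pic0.mk (Subtype.ext ?_)
    push_cast
    rw [map_add, Finsupp.single_add]
    abel

theorem cls_apply (D : Divisor ℂ FC) : cls D = Pic0.mk ⟨D - Finsupp.single (cusp N) (Divisor.degree D), by
    rw [Divisor.mem_degZero, map_sub, degree_single', sub_self]⟩ := rfl

theorem cls_degZero (D : Divisor.degZero (K := ℂ) (F := FC)) :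
    cls (D : Divisor ℂ FC) = Pic0.mk D := by
  refine congrArg Pic0.mk (Subtype.ext ?_)
  simp [Divisor.mem_degZero.1 D.2]

theorem cls_single_cusp (n : ℤ) : cls (Finsupp.single (cusp N) n) = 0 := by
  rw [← Pic0.mk_zero]
  refine congrArg Pic0.mk (Subtype.ext ?_)
  simp only [degree_single', sub_self]
  rfl

theorem cls_divOf {f : FC} (hf : f ≠ 0) : cls (divOf ℂ f) = 0 := by
  rw [cls_apply, Pic0.mk, QuotientAddGroup.eq_zero_iff, AddSubgroup.mem_addSubgroupOf]
  refine ⟨f, hf, fun v => ?_⟩
  simp [degree_divOf, divOf_apply]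

theorem exists_divOf_of_cls_eq {D E : Divisor ℂ FC} (hd : Divisor.degree D = Divisor.degree E)
    (h : cls D = cls E) : ∃ f : FC, f ≠ 0 ∧ D = E + divOf ℂ f := by
  have h0 : cls (D - E) = 0 := by rw [map_sub, h, sub_self]
  rw [cls_apply, Pic0.mk, QuotientAddGroup.eq_zero_iff, AddSubgroup.mem_addSubgroupOf] at h0
  obtain ⟨f, hf, hv⟩ := h0
  refine ⟨f, hf, Finsupp.ext fun v => ?_⟩
  have := hv v
  simp only [map_sub, hd, sub_self, Finsupp.single_zero, sub_zero, Finsupp.sub_apply] at this
  rw [Finsupp.add_apply, divOf_apply]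
  omega

theorem smul_cls (e : ℂ ≃ₐ[ℚ] ℂ) (D : Divisor ℂ FC) : gal N e • cls D = cls (gal N e • D) := by
  have h := SemilinearAut.degree_smul (gal N e) D
  have h' : gal N e • D - Finsupp.single (cusp N) (Divisor.degree D) ∈
      Divisor.degZero (K := ℂ) (F := FC) := by
    rw [Divisor.mem_degZero, map_sub, degree_single', h, sub_self]
  rw [cls_apply D, smul_mk_normalised (gal N e) (gal_cusp e) D _ _ h', cls_apply]
  exact congrArg Pic0.mk (Subtype.ext
    (congrArg (fun n => gal N e • D - Finsupp.single (cusp N) n) h.symm))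

theorem rr_lower (G : Divisor ℂ FC) : Divisor.degree G + 1 - rGenus ℂ FC ≤ ell G :=
  (exists_riemann (K := ℂ) (F := FC)).choose_spec.choose_spec.2.1 G

theorem ell_zero : ell (0 : Divisor ℂ FC) = 1 := by
  rw [ell, finrank_rrSpace_zero]; rfl

theorem rGenus_nonneg : 0 ≤ rGenus ℂ FC := by
  have := rr_lower (N := N) 0
  rw [map_zero, ell_zero] at this
  omega

/-- Every class has an effective representative of degree the genus. -/
theorem exists_eff (c : Pic0 ℂ FC) :
    ∃ E : Divisor ℂ FC, 0 ≤ E ∧ Divisor.degree E = rGenus ℂ FC ∧ cls E = c := by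
  obtain ⟨D, rfl⟩ := Pic0.mk_surjective c
  set G : Divisor ℂ FC := (D : Divisor ℂ FC) + Finsupp.single (cusp N) (rGenus ℂ FC)
  have hG : Divisor.degree G = rGenus ℂ FC := by
    simp only [G, map_add, degree_single', Divisor.mem_degZero.1 D.2, zero_add]
  have h1 := rr_lower G
  rw [hG] at h1
  obtain ⟨f, hf, hf0⟩ := (Submodule.ne_bot_iff (riemannRochSpace G)).1 fun hb => by
    rw [ell, hb, finrank_bot] at h1; omega
  refine ⟨G + divOf ℂ f, fun v => ?_, by rw [map_add, hG, degree_divOf, add_zero], ?_⟩
  · have := (mem_rrSpace.1 hf v).le_ord hf0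
    rw [Finsupp.add_apply, divOf_apply]
    show 0 ≤ _
    omega
  · rw [map_add, map_add, cls_degZero, cls_single_cusp, cls_divOf hf0, add_zero, add_zero]

/-- An effective divisor moving in no pencil is alone in its class. -/
theorem eq_of_ell_one {E E' : Divisor ℂ FC} (hE : 0 ≤ E) (hE' : 0 ≤ E') (h1 : ell E = 1)
    (hd : Divisor.degree E' = Divisor.degree E) (h : cls E' = cls E) : E' = E := by
  obtain ⟨f, hf, rfl⟩ := exists_divOf_of_cls_eq hd h
  have hmem : f ∈ riemannRochSpace E := mem_rrSpace.2 fun v => ordGE_of_le (by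
    have := hE' v
    rw [Finsupp.add_apply, divOf_apply] at this
    change 0 ≤ _ at this
    omega)
  obtain ⟨a, ha⟩ := mem_range_of_finrank_one (W := riemannRochSpace E)
    (Nat.cast_injective (R := ℤ) h1) (one_mem_rrSpace hE) hmem
  rw [ha, divOf_algebraMap, add_zero]

/-- An effective divisor is a sum of points. -/
theorem exists_points (n : ℕ) {E : Divisor ℂ FC} (hE : 0 ≤ E) (hd : Divisor.degree E = n) :
    ∃ p : Fin n → Place ℂ FC, E = ∑ i, Finsupp.single (p i) 1 := by
  classical
  induction n generalizing E with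
  | zero =>
      refine ⟨Fin.elim0, ?_⟩
      rw [Fin.sum_univ_zero]
      exact (eq_of_le_of_degree_le hE (by simp [hd])).symm
  | succ n ih =>
      obtain ⟨P, hP⟩ := exists_pos_of_degree_pos (by rw [hd]; omega : 0 < Divisor.degree E)
      obtain ⟨p, hp⟩ := ih (E := E - Finsupp.single P 1) (fun v => by
        have := hE v
        change 0 ≤ _ at this
        rw [Finsupp.sub_apply, Finsupp.single_apply]
        show 0 ≤ _
        split_ifs with h
        · subst h; omega
        · omega) (by rw [map_sub, degree_single', hd]; push_cast; ring)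
      refine ⟨Fin.snoc p P, ?_⟩
      rw [Fin.sum_univ_castSucc]
      simp only [Fin.snoc_castSucc, Fin.snoc_last]
      rw [← hp, sub_add_cancel]

end FLTAgent.Divisible
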