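import Fermat.Agent.Divisible.Classes
import Fermat.Agent.TorsionHom.Kummer

/-!
# The class group over `ℂ` is divisible
-/

set_option autoImplicit false

noncomputable section

namespace FLTAgent.Divisible

set_option linter.unusedSectionVars false

open AlgebraicCurve FLTAgent.X0Fn FLTAgent.Curves FLTAgent.Specialization

variable {N : ℕ} [NeZero N]

local notation "FC" => XF ℂ N
local notation "P0" => Pic0 ℂ FC

theorem gal_nsmul (e : ℂ ≃ₐ[ℚ] ℂ) (l : ℕ) (x : P0) : gal N e • (l • x) = l • (gal N e • x) :=
  map_nsmul (DistribSMul.toAddMonoidHom P0 (gal N e)) l x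

theorem sub_degree_mem {ι A : Type*} [AddCommGroup A] (φ : (ι →₀ ℤ) →+ A) (d : (ι →₀ ℤ) →+ ℤ)
    (hd : ∀ R, d (Finsupp.single R 1) = 1) (H : AddSubgroup A) (v₀ : A) (D : ι →₀ ℤ)
    (h : ∀ R, D R ≠ 0 → φ (Finsupp.single R 1) - v₀ ∈ H) : φ D - d D • v₀ ∈ H := by
  classical
  induction D using Finsupp.induction with
  | zero => simp
  | single_add R n D hR hn ih =>
      have h1 : φ (Finsupp.single R n) - n • v₀ ∈ H := by
        rw [← Finsupp.smul_single_one R n, map_zsmul, ← zsmul_sub]
        refine AddSubgroup.zsmul_mem _ (h R ?_) n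
        rw [Finsupp.add_apply, Finsupp.single_eq_same, Finsupp.notMem_support_iff.1 hR, add_zero]
        exact hn
      have h2 := ih fun R' hR' => h R' (by
        rw [Finsupp.add_apply, Finsupp.single_eq_of_ne (fun e => by
          subst e; exact hR' (Finsupp.notMem_support_iff.1 hR)), zero_add]
        exact hR')
      have h3 : d (Finsupp.single R n) = n := by
        rw [← Finsupp.smul_single_one R n, map_zsmul, hd, smul_eq_mul, mul_one]
      rw [map_add, map_add, h3, add_zsmul, add_sub_add_comm]
      exact add_mem h1 h2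

theorem finite_torsion {l : ℕ} (hl : l ≠ 0) : {x : P0 | l • x = 0}.Finite := by
  haveI : NeZero l := ⟨hl⟩
  haveI : Finite (Pic0.torsion ℂ FC l) := Nat.finite_of_card_ne_zero (by
    rw [TorsionHom.card_torsion (RingHom.id ℂ) l]; exact pow_ne_zero _ hl)
  refine ((Set.toFinite (Set.univ : Set (Pic0.torsion ℂ FC l))).image Subtype.val).subset
    fun x hx => ⟨⟨x, Pic0.mem_torsion.2 (by rw [natCast_zsmul]; exact hx)⟩, trivial, rfl⟩

theorem finite_nsmul_eq {l : ℕ} (hl : l ≠ 0) (y : P0) : {x : P0 | l • x = y}.Finite := by
  rcases Set.eq_empty_or_nonempty {x : P0 | l • x = y} with h | ⟨x₀, hx₀⟩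
  · rw [h]; exact Set.finite_empty
  · refine ((finite_torsion hl).image (x₀ + ·)).subset fun x hx => ?_
    have hx' : l • x = y := hx
    have hx₀' : l • x₀ = y := hx₀
    exact ⟨x - x₀, by
      show l • (x - x₀) = 0
      rw [nsmul_sub, hx', hx₀', sub_self], by simp⟩

/-- Independent points carrying a divisor without pencils. -/
theorem exists_independent (k : ℕ) (hk : (k : ℤ) ≤ rGenus ℂ FC) :
    ∃ p : Fin k → Place ℂ FC, (∀ i, Affine (p i)) ∧
      AlgebraicIndependent ℚ (fun i => jval (p i)) ∧
      ell (∑ i, Finsupp.single (p i) 1) = 1 := by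
  classical
  induction k with
  | zero =>
      exact ⟨Fin.elim0, fun i => i.elim0, algebraicIndependent_empty_type,
        by rw [Fin.sum_univ_zero, ell_zero]⟩
  | succ k ih =>
      obtain ⟨p, hp, hind, hell⟩ := ih (by omega)
      set D : Divisor ℂ FC := ∑ i, Finsupp.single (p i) 1 with hD
      have hD0 : 0 ≤ D := Finset.sum_nonneg fun i _ => fun v => by
        rw [Finsupp.single_apply]; simp only [Finsupp.coe_zero, Pi.zero_apply]; split_ifs <;> omega
      have hdD : Divisor.degree D = k := by simp [hD, map_sum, deg_eq_one]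
      set T : Set ℂ := (acl (Set.range fun i => jval (p i)) : Set ℂ)ᶜ
      suffices h : ∃ a ∈ T, ∃ v : Place ℂ FC, Affine v ∧ jval v = a ∧
          ell (D + Finsupp.single v 1) = 1 by
        obtain ⟨a, ha, v, hv, rfl, hv1⟩ := h
        refine ⟨Fin.snoc p v, Fin.lastCases (by simpa using hv) (fun i => by simpa using hp i),
          ?_, ?_⟩
        · have := indep_snoc hind ha
          convert this using 1
          funext i
          induction i using Fin.lastCases <;> simp
        · rw [Fin.sum_univ_castSucc]; simpa using hv1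
      by_contra! hall
      choose v hv hva using fun a : ℂ => exists_jval (N := N) a
      have hgrow : ∀ A : Finset ℂ, (↑A ⊆ T) →
          (A.card : ℤ) + 1 ≤ ell (D + ∑ a ∈ A, Finsupp.single (v a) 1) := by
        intro A
        induction A using Finset.induction with
        | empty => intro _; simp [hell]
        | @insert a A ha ih =>
            intro hA
            rw [Finset.coe_insert, Set.insert_subset_iff] at hA
            have h1 := ih hA.2
            rw [Finset.sum_insert ha, Finset.card_insert_of_notMem ha]
            set B := D + ∑ b ∈ A, Finsupp.single (v b) 1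
            have h2 : ell (D + Finsupp.single (v a) 1) ≠ 1 := hall a hA.1 (v a) (hv a) (hva a)
            have hB : B (v a) = 0 := by
              simp only [B, hD, Finsupp.add_apply, Finsupp.finsetSum_apply, Finsupp.single_apply]
              rw [Finset.sum_eq_zero, Finset.sum_eq_zero, add_zero]
              · intro b hb
                rw [if_neg]
                intro he
                exact ha (by rwa [← hva a, ← he, hva b])
              · intro i _
                rw [if_neg]
                intro he
                exact hA.1 (by rw [← hva a, ← he]; exact subset_acl _ ⟨i, rfl⟩)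
            have hle : riemannRochSpace B < riemannRochSpace (Finsupp.single (v a) 1 + B) := by
              refine lt_of_le_not_ge (rrSpace_le (le_add_of_nonneg_left fun w => by
                rw [Finsupp.single_apply]; simp only [Finsupp.coe_zero, Pi.zero_apply]
                split_ifs <;> omega)) fun hge => h2 ?_
              have hDle : riemannRochSpace (D + Finsupp.single (v a) 1) ≤ riemannRochSpace D := by
                intro f hf
                refine mem_rrSpace.2 fun w => ?_
                rcases eq_or_ne w (v a) with rfl | hw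
                · have hfB : f ∈ riemannRochSpace B := hge (rrSpace_le (fun u => by
                    have h0 : (0 : ℤ) ≤ (∑ b ∈ A, Finsupp.single (v b) (1 : ℤ)) u := by
                      rw [Finsupp.finsetSum_apply]
                      exact Finset.sum_nonneg fun b _ => by
                        rw [Finsupp.single_apply]; split_ifs <;> omega
                    simp only [B, Finsupp.add_apply]; omega) hf)
                  have := mem_rrSpace.1 hfB (v a)
                  rw [hB] at this
                  refine this.mono ?_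
                  have := hD0 (v a)
                  simp only [Finsupp.coe_zero, Pi.zero_apply] at this
                  omega
                · have := mem_rrSpace.1 hf w
                  rwa [Finsupp.add_apply, Finsupp.single_eq_of_ne hw, add_zero] at this
              have h3 : ell (D + Finsupp.single (v a) 1) ≤ ell D :=
                Nat.cast_le.2 (Submodule.finrank_mono hDle)
              have h4 : ell D ≤ ell (D + Finsupp.single (v a) 1) := ell_mono (fun w => by
                rw [Finsupp.add_apply, Finsupp.single_apply]; split_ifs <;> omega)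
              omega
            have h5 := Submodule.finrank_lt_finrank_of_lt hle
            rw [show D + (Finsupp.single (v a) 1 + ∑ b ∈ A, Finsupp.single (v b) 1) =
              Finsupp.single (v a) 1 + B by simp only [B]; abel]
            rw [ell] at h1 ⊢
            omega
      have hT : T.Infinite := fun hfin => by
        have := ((countable_acl (Set.countable_range fun i => jval (p i))).union hfin.countable)
        rw [Set.union_compl_self] at this
        exact not_countable_complex this
      obtain ⟨A, hA, hcard⟩ := hT.exists_subset_card_eq ((rBound ℂ FC).toNat + 1)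
      have h1 := hgrow A hA
      have h2 := ell_eq (G := D + ∑ a ∈ A, Finsupp.single (v a) 1)
      have h3 : Divisor.degree (D + ∑ a ∈ A, Finsupp.single (v a) 1) = k + A.card := by
        simp [map_add, map_sum, hdD, deg_eq_one]
      rw [h3] at h2
      have := h2 (by omega)
      omega

/-- The subgroup of multiples. -/
def multiples (l : ℕ) : AddSubgroup P0 := (nsmulAddMonoidHom l).range

theorem mem_multiples {l : ℕ} {x : P0} : x ∈ multiples l ↔ ∃ z, l • z = x := Iff.rfl

theorem gal_mem_multiples {l : ℕ} {x : P0} (hx : x ∈ multiples l) (e : ℂ ≃ₐ[ℚ] ℂ) :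
    gal N e • x ∈ multiples l := by
  obtain ⟨z, rfl⟩ := hx
  exact ⟨gal N e • z, (gal_nsmul e l z).symm⟩

theorem gal_sum_single (e : ℂ ≃ₐ[ℚ] ℂ) {ι : Type*} (s : Finset ι) (p : ι → Place ℂ FC) :
    gal N e • (∑ i ∈ s, Finsupp.single (p i) (1 : ℤ)) =
      ∑ i ∈ s, Finsupp.single (gal N e • p i) 1 := by
  rw [Finset.smul_sum]
  exact Finset.sum_congr rfl fun i _ => SemilinearAut.smul_single _ _ _

set_option maxHeartbeats 1000000 in
/-- A multiple moving a transcendental point. -/
theorem exists_moving {l : ℕ} (hl : l ≠ 0) (hg : rGenus ℂ FC ≠ 0) :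
    ∃ (S : Set ℂ) (v : Place ℂ FC), S.Countable ∧ Affine v ∧ jval v ∉ acl S ∧
      ∀ e ∈ Fix (acl S : Set ℂ),
        cls (Finsupp.single (gal N e • v) 1) - cls (Finsupp.single v 1) ∈ multiples l := by
  classical
  obtain ⟨g, hgg⟩ : ∃ g : ℕ, rGenus ℂ FC = g := ⟨_, (Int.toNat_of_nonneg rGenus_nonneg).symm⟩
  obtain ⟨p, hp, hind, hell⟩ := exists_independent (N := N) g hgg.ge
  set D : Divisor ℂ FC := ∑ i, Finsupp.single (p i) 1 with hD
  have hD0 : 0 ≤ D := Finset.sum_nonneg fun i _ => fun v => by
    rw [Finsupp.single_apply]; simp only [Finsupp.coe_zero, Pi.zero_apply]; split_ifs <;> omega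
  obtain ⟨E, hE, hdE, hcE⟩ := exists_eff (l • cls D)
  obtain ⟨q, rfl⟩ := exists_points g hE (hdE.trans hgg)
  set Y : Finset ℂ := (Finset.univ.filter fun i => Affine (q i)).image fun i => jval (q i) with hY
  set A := Fix (acl (Y : Set ℂ) : Set ℂ)
  have hqfix : ∀ e ∈ A, ∀ i, gal N e • q i = q i := fun e he i =>
    gal_eq_of_special (fun ha => subset_acl _ (Finset.mem_coe.2 (Finset.mem_image.2
      ⟨i, Finset.mem_filter.2 ⟨Finset.mem_univ _, ha⟩, rfl⟩))) he
  have hufix : ∀ e ∈ A, l • (gal N e • cls D) = l • cls D := fun e he => by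
    rw [← gal_nsmul, ← hcE, smul_cls, gal_sum_single]
    exact congrArg cls (Finset.sum_congr rfl fun i _ => by rw [hqfix e he i])
  have horbit : ((fun e => gal N e • D) '' A).Finite := by
    refine Set.Finite.of_finite_image (f := cls) ((finite_nsmul_eq hl (l • cls D)).subset ?_) ?_
    · rintro _ ⟨_, ⟨e, he, rfl⟩, rfl⟩
      show l • cls (gal N e • D) = _
      rw [← smul_cls, hufix e he]
    · rintro _ ⟨e, he, rfl⟩ _ ⟨e', he', rfl⟩ h
      have h1 : gal N (e'⁻¹ * e) • D = D := by
        refine eq_of_ell_one hD0 (fun v => ?_) hell (SemilinearAut.degree_smul _ _) ?_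
        · rw [SemilinearAut.divisor_smul_apply]; exact hD0 _
        · rw [← smul_cls, map_mul, mul_smul, smul_cls e, h, ← smul_cls, map_inv, inv_smul_smul]
      rw [map_mul, mul_smul, map_inv, inv_smul_eq_iff] at h1
      exact h1
  have hp' : ∀ i, jval (p i) ∈ acl (Y : Set ℂ) := fun i => by
    refine special_of_finite_orbit ?_ (hp i)
    refine ((horbit.image fun E : Divisor ℂ FC => (E.support : Set (Place ℂ FC))).sUnion ?_).subset ?_
    · rintro _ ⟨E, -, rfl⟩; exact E.support.finite_toSet
    · rintro _ ⟨e, he, rfl⟩
      refine Set.mem_sUnion.2 ⟨_, ⟨_, ⟨e, he, rfl⟩, rfl⟩, Finsupp.mem_support_iff.2 ?_⟩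
      rw [SemilinearAut.divisor_smul_apply_smul, hD, Finsupp.finsetSum_apply]
      refine (lt_of_lt_of_le (zero_lt_one' ℤ) ?_).ne'
      refine le_of_eq_of_le ?_ (Finset.single_le_sum (fun j _ => ?_) (Finset.mem_univ i))
      · simp
      · rw [Finsupp.single_apply]; split_ifs <;> omega
  have hcard := card_le_of_mem_acl hind hp'
  have hfilter : (Finset.univ.filter fun i => Affine (q i)).card = g := le_antisymm
    ((Finset.card_filter_le _ _).trans (by simp)) (hcard.trans Finset.card_image_le)
  have huniv : (Finset.univ.filter fun i => Affine (q i)) = Finset.univ :=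
    Finset.eq_univ_of_card _ (hfilter.trans (Fintype.card_fin g).symm)
  have hAff : ∀ i, Affine (q i) := fun i =>
    Finset.filter_eq_self.1 huniv i (Finset.mem_univ i)
  obtain ⟨i₀⟩ : Nonempty (Fin g) := ⟨⟨0, Nat.pos_of_ne_zero fun h => hg (by simp [hgg, h])⟩⟩
  set Y' : Finset ℂ := (Finset.univ.erase i₀).image fun i => jval (q i) with hY'
  refine ⟨(Y' : Set ℂ), q i₀, Y'.countable_toSet, hAff i₀, fun hmem => ?_, fun e he => ?_⟩
  · have hle : acl (Y : Set ℂ) ≤ acl (Y' : Set ℂ) := acl_le fun z hz => by
      obtain ⟨i, -, rfl⟩ := Finset.mem_image.1 (Finset.mem_coe.1 hz)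
      rcases eq_or_ne i i₀ with rfl | hi
      · exact hmem
      · exact subset_acl _ (Finset.mem_coe.2 (Finset.mem_image.2
          ⟨i, Finset.mem_erase.2 ⟨hi, Finset.mem_univ i⟩, rfl⟩))
    have h1 := card_le_of_mem_acl hind fun i => hle (hp' i)
    have h2 : Y'.card ≤ g - 1 := Finset.card_image_le.trans
      (by rw [Finset.card_erase_of_mem (Finset.mem_univ i₀), Finset.card_univ, Fintype.card_fin])
    have := i₀.pos
    omega
  · have h : l • (gal N e • cls D - cls D) =
        cls (Finsupp.single (gal N e • q i₀) 1) - cls (Finsupp.single (q i₀) 1) := by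
      rw [nsmul_sub, ← gal_nsmul, ← hcE, smul_cls, gal_sum_single, map_sum, map_sum, ← Finset.sum_sub_distrib,
        Finset.sum_eq_single i₀]
      · intro i _ hi
        rw [gal_eq_of_special (fun _ => subset_acl _ (Finset.mem_coe.2 (Finset.mem_image.2
          ⟨i, Finset.mem_erase.2 ⟨hi, Finset.mem_univ i⟩, rfl⟩))) he, sub_self]
      · simp
    exact ⟨_, h⟩

set_option maxHeartbeats 1000000 in
/-- The degree zero class group over `ℂ` is divisible. -/
theorem exists_nsmul_eq_complex {l : ℕ} (hl : l ≠ 0) (c : P0) : ∃ z, l • z = c := by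
  classical
  obtain ⟨E, hE, hdE, rfl⟩ := exists_eff c
  by_cases hg : rGenus ℂ FC = 0
  · rw [← eq_of_le_of_degree_le hE (by rw [hdE, hg, map_zero]), map_zero]
    exact ⟨0, smul_zero _⟩
  obtain ⟨S, v, hS, hv, hvS, hmove⟩ := exists_moving hl hg
  set S' : Set ℂ := insert (jval v) S
  have hgood : ∀ Q : Place ℂ FC, ¬ Special S' Q →
      cls (Finsupp.single Q 1) - cls (Finsupp.single v 1) ∈ multiples l := by
    intro Q hQ
    have hQa : Affine Q := by by_contra h; exact hQ fun h' => absurd h' h
    have hQj : jval Q ∉ acl S' := fun h => hQ fun _ => h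
    obtain ⟨σ, hσ, hσv⟩ := exists_map S hvS hQj
    obtain ⟨τ, hτ, hτQ⟩ := exists_gal_eq S ((affine_gal_iff σ).2 hv) hQa
      (by rw [(jval_gal hv σ).2, hσv])
      (by rw [(jval_gal hv σ).2, hσv]; exact fun h => hQj (acl_mono (Set.subset_insert _ _) h))
    have := hmove (τ * σ) (mul_mem_fix hτ hσ)
    rwa [map_mul, mul_smul, hτQ] at this
  have hBad : {P : Place ℂ FC | Special S' P}.Countable := countable_special (hS.insert _)
  have hpoint : ∀ P : Place ℂ FC,
      cls (Finsupp.single P 1) - cls (Finsupp.single v 1) ∈ multiples l := by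
    intro P
    obtain ⟨a, ha⟩ : ∃ a, a ∉ acl S' := by
      by_contra! hall
      exact not_countable_complex ((countable_acl (hS.insert _)).mono fun z _ => hall z)
    obtain ⟨Q, hQa, hQj⟩ := exists_jval (N := N) a
    have hQ : ¬ Special S' Q := fun h => ha (hQj ▸ h hQa)
    set m : ℤ := rBound ℂ FC + 2 with hm
    set G : Divisor ℂ FC := Finsupp.single Q m - Finsupp.single P 1 with hG
    have hdG : rBound ℂ FC + 1 ≤ Divisor.degree G := by
      rw [hG, map_sub, degree_single', degree_single']; omega
    haveI : Countable {R : Place ℂ FC | Special S' R ∨ R = Q} := by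
      exact (hBad.union (Set.countable_singleton Q)).to_subtype
    let W : Submodule ℂ FC := riemannRochSpace G
    let U : {R : Place ℂ FC | Special S' R ∨ R = Q} → Submodule ℂ W :=
      fun R => (riemannRochSpace (G - Finsupp.single R.1 1)).comap W.subtype
    obtain ⟨⟨f, hf⟩, hfU⟩ := exists_notMem_countable U fun R htop => by
      obtain ⟨f, hf, hex⟩ := exists_exact hdG R.1
      have h : (⟨f, hf⟩ : W) ∈ U R := htop ▸ Submodule.mem_top
      have h1 := mem_rrSpace.1 (h : f ∈ riemannRochSpace (G - Finsupp.single R.1 1)) R.1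
      rw [Finsupp.sub_apply, Finsupp.single_eq_same] at h1
      exact hex (h1.mono (by omega))
    have hf0 : f ≠ 0 := by
      rintro rfl
      exact hfU ⟨Q, Or.inr rfl⟩ (zero_mem _)
    set E : Divisor ℂ FC := G + divOf ℂ f with hEdef
    have hEbad : ∀ R : Place ℂ FC, Special S' R ∨ R = Q → E R = 0 := fun R hR => by
      have h1 := (mem_rrSpace.1 hf R).le_ord hf0
      have h2 : ¬ (-G R + 1 ≤ R.ord f) := fun h2 => by
        refine hfU ⟨R, hR⟩ (mem_rrSpace.2 fun w => ?_ : f ∈ riemannRochSpace _)
        rw [Finsupp.sub_apply]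
        rcases eq_or_ne w R with rfl | hw
        · rw [Finsupp.single_eq_same]; exact ordGE_of_le (by omega)
        · rw [Finsupp.single_eq_of_ne hw, sub_zero]; exact mem_rrSpace.1 hf w
      rw [hEdef, Finsupp.add_apply, divOf_apply]; omega
    have hcl : cls (Finsupp.single P 1) = cls (Finsupp.single Q m) - cls E := by
      rw [hEdef, map_add, cls_divOf hf0, add_zero, hG, map_sub, sub_sub_cancel]
    have hdeg : Divisor.degree E = m - 1 := by
      rw [hEdef, map_add, degree_divOf, add_zero, hG, map_sub, degree_single', degree_single']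
    have h1 := sub_degree_mem cls Divisor.degree (fun R => degree_single' R 1) (multiples l)
      (cls (Finsupp.single v 1)) E fun R hR => hgood R fun hsp => hR (hEbad R (Or.inl hsp))
    have h2 := sub_degree_mem cls Divisor.degree (fun R => degree_single' R 1) (multiples l)
      (cls (Finsupp.single v 1)) (Finsupp.single Q m) fun R hR => by
        rcases eq_or_ne R Q with rfl | hne
        · exact hgood _ hQ
        · exact absurd (Finsupp.single_eq_of_ne hne) hR
    rw [hdeg] at h1
    rw [degree_single'] at h2
    have h3 := sub_mem h2 h1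
    rw [show cls (Finsupp.single Q m) - m • cls (Finsupp.single v 1) -
        (cls E - (m - 1) • cls (Finsupp.single v 1)) =
        cls (Finsupp.single Q m) - cls E - cls (Finsupp.single v 1) by
      rw [sub_zsmul, one_zsmul]; abel, ← hcl] at h3
    exact h3
  have hcusp := hpoint (cusp N)
  rw [cls_single_cusp, zero_sub, neg_mem_iff] at hcusp
  have h1 := sub_degree_mem cls Divisor.degree (fun R => degree_single' R 1) (multiples l)
    (cls (Finsupp.single v 1)) E fun R _ => hpoint R
  have h2 := add_mem h1 (AddSubgroup.zsmul_mem _ hcusp (Divisor.degree E))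
  rwa [sub_add_cancel] at h2

end FLTAgent.Divisible
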