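import Fermat.Agent.Divisible.Points

/-!
# Descent of linear systems along automorphisms of `ℂ`
-/

set_option autoImplicit false

noncomputable section

namespace FLTAgent.Divisible

set_option linter.unusedSectionVars false

open AlgebraicCurve FLTAgent.X0Fn FLTAgent.Curves FLTAgent.Specialization

variable {N : ℕ} [NeZero N]

local notation "FC" => XF ℂ N

/-- The window of coefficients that determines a multiple of `G`. -/
def width (G : Divisor ℂ FC) : ℕ := (Divisor.degree G + 1).toNat

/-- The coefficients in the window. -/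
def trunc (G : Divisor ℂ FC) : FC →ₗ[ℂ] (Fin (width G) → ℂ) where
  toFun x i := (x : LaurentSeries ℂ).coeff (-G (cusp N) + (i : ℕ))
  map_add' x y := funext fun i => HahnSeries.coeff_add
  map_smul' c x := funext fun i => by
    show ((c • x : FC) : LaurentSeries ℂ).coeff _ = _
    rw [IntermediateField.coe_smul, Algebra.smul_def,
      ModularCurve.algebraMap_laurentSeries_eq_single, HahnSeries.coeff_single_zero_mul]
    rfl

theorem trunc_gal (G : Divisor ℂ FC) (e : ℂ ≃ₐ[ℚ] ℂ) (x : FC) (i : Fin (width G)) :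
    trunc G (gal N e • x) i = e (trunc G x i) :=
  coeff_gal e x _

theorem eq_zero_of_trunc {G : Divisor ℂ FC} {x : FC} (hx : x ∈ riemannRochSpace G)
    (h : trunc G x = 0) : x = 0 := by
  classical
  by_contra hx0
  have h1 := (mem_rrSpace.1 hx (cusp N)).le_ord hx0
  have h2 : (cusp N).ord x + G (cusp N) ≤ Divisor.degree G := by
    have hle : Finsupp.single (cusp N) ((cusp N).ord x + G (cusp N)) ≤ divOf ℂ x + G := fun v => by
      rw [Finsupp.add_apply, divOf_apply, Finsupp.single_apply]
      split_ifs with hv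
      · subst hv; exact le_rfl
      · have := (mem_rrSpace.1 hx v).le_ord hx0; omega
    have := degree_mono hle
    rw [degree_single', map_add, degree_divOf, zero_add] at this
    exact this
  have hord : (x : LaurentSeries ℂ).order = (cusp N).ord x := TorsionHom.order_coe _ x
  have hlt : ((cusp N).ord x + G (cusp N)).toNat < width G := by unfold width; omega
  refine HahnSeries.leadingCoeff_ne_zero.2 (fun h0 => hx0 (Subtype.ext h0)) ?_
  rw [HahnSeries.leadingCoeff_eq]
  have := congrFun h ⟨_, hlt⟩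
  change (x : LaurentSeries ℂ).coeff _ = 0 at this
  convert this using 2
  rw [hord]; simp only; omega

/-- The translate of a space of functions. -/
def galSet (e : ℂ ≃ₐ[ℚ] ℂ) (W : Submodule ℂ FC) : Set FC :=
  (fun x => gal N e • x) '' (W : Set FC)

open Classical in
/-- A space whose translates determine the translates of scalars is spanned by rational
elements. -/
theorem le_span_rat (k : IntermediateField ℚ ℂ) (A : Set (ℂ ≃ₐ[ℚ] ℂ)) {G : Divisor ℂ FC}
    {W : Submodule ℂ FC} (hW : W ≤ riemannRochSpace G)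
    (hG : ∀ e ∈ Fix (k : Set ℂ), gal N e • G = G)
    (hk : ∀ x : ℂ, (∀ e ∈ A, ∀ e' ∈ A, galSet e W = galSet e' W → e x = e' x) → x ∈ k) :
    W ≤ Submodule.span ℂ {x | x ∈ W ∧ Rat (k : Set ℂ) x} := by
  let supp : FC → Finset (Fin (width G)) := fun x => Finset.univ.filter fun i => trunc G x i ≠ 0
  suffices h : ∀ m : ℕ, ∀ x ∈ W, (supp x).card = m →
      x ∈ Submodule.span ℂ {x | x ∈ W ∧ Rat (k : Set ℂ) x} from fun x hx => h _ x hx rfl
  intro m
  induction m using Nat.strong_induction_on with
  | _ m ih =>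
  intro x hx hm
  by_cases hx0 : x = 0
  · rw [hx0]; exact zero_mem _
  have hex : ∃ r, ∃ v ∈ W, v ≠ 0 ∧ supp v ⊆ supp x ∧ (supp v).card = r :=
    ⟨_, x, hx, hx0, subset_rfl, rfl⟩
  obtain ⟨v₀, hv₀, hv₀0, hv₀s, hv₀c⟩ := Nat.find_spec hex
  obtain ⟨i, hi⟩ : (supp v₀).Nonempty := by
    rw [Finset.nonempty_iff_ne_empty]
    intro he
    refine hv₀0 (eq_zero_of_trunc (hW hv₀) (funext fun i => ?_))
    have := Finset.eq_empty_iff_forall_notMem.1 he i
    simpa [supp] using this
  have hi0 : trunc G v₀ i ≠ 0 := (Finset.mem_filter.1 hi).2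
  set v : FC := (trunc G v₀ i)⁻¹ • v₀ with hv
  have hvW : v ∈ W := W.smul_mem _ hv₀
  have hsupp : supp v = supp v₀ := by
    ext j; simp [supp, hv, map_smul, hi0]
  have hvi : trunc G v i = 1 := by simp [hv, map_smul, hi0]
  have hmin : ∀ u ∈ W, supp u ⊆ supp v → trunc G u i = 0 → u = 0 := by
    intro u hu hus hui
    by_contra hu0
    refine Nat.find_min hex ?_ ⟨u, hu, hu0, hus.trans (hsupp ▸ hv₀s), rfl⟩
    rw [← hv₀c, ← hsupp]
    refine Finset.card_lt_card ((Finset.ssubset_iff_of_subset hus).2 ⟨i, hsupp ▸ hi, ?_⟩)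
    simp [supp, hui]
  have hcoord : ∀ j, trunc G v j ∈ k := by
    intro j
    refine hk _ fun e he e' he' hee => ?_
    obtain ⟨w, hw, hwe⟩ : gal N e • v ∈ galSet e' W := hee ▸ ⟨v, hvW, rfl⟩
    change gal N e' • w = _ at hwe
    have hwv : ∀ j, e' (trunc G w j) = e (trunc G v j) := fun j => by
      rw [← trunc_gal, ← trunc_gal, hwe]
    have hz : w - v = 0 := hmin _ (W.sub_mem hw hvW) (fun j hj => by
      simp only [supp, Finset.mem_filter, Finset.mem_univ, true_and] at hj ⊢
      intro h0
      refine hj ?_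
      have := hwv j
      rw [h0, map_zero, map_eq_zero_iff _ e'.injective] at this
      rw [map_sub, Pi.sub_apply, this, h0, sub_zero]) (by
      have := hwv i
      rw [hvi, map_one, ← map_one e'] at this
      rw [map_sub, Pi.sub_apply, e'.injective this, hvi, sub_self])
    rw [← hwv j, sub_eq_zero.1 hz]
  have hrat : Rat (k : Set ℂ) v := rat_of_gal_eq k fun e he => by
    have hmem : gal N e • v ∈ riemannRochSpace G := mem_rrSpace.2 fun P => by
      have h := ordGE_gal (g := gal N e) (mem_rrSpace.1 (hW hvW) ((gal N e)⁻¹ • P))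
      rw [smul_inv_smul, ← SemilinearAut.divisor_smul_apply, hG e he] at h
      exact h
    refine sub_eq_zero.1 (eq_zero_of_trunc (Submodule.sub_mem _ hmem (hW hvW)) (funext fun j => ?_))
    rw [map_sub, Pi.sub_apply, trunc_gal, he _ (hcoord j), sub_self, Pi.zero_apply]
  have hx' : x - trunc G x i • v ∈ Submodule.span ℂ {x | x ∈ W ∧ Rat (k : Set ℂ) x} := by
    refine ih _ ?_ _ (W.sub_mem hx (W.smul_mem _ hvW)) rfl
    rw [← hm]
    refine Finset.card_lt_card ((Finset.ssubset_iff_of_subset fun j hj => ?_).2 ⟨i, hv₀s hi, ?_⟩)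
    · simp only [supp, Finset.mem_filter, Finset.mem_univ, true_and] at hj ⊢
      intro h0
      have h1 : trunc G v j = 0 := by
        by_contra hne
        have : j ∈ supp x := hv₀s (hsupp ▸ Finset.mem_filter.2 ⟨Finset.mem_univ _, hne⟩)
        exact (Finset.mem_filter.1 this).2 h0
      exact hj (by simp [h0, h1])
    · simp [supp, hvi]
  have := add_mem hx' (Submodule.smul_mem _ (trunc G x i) (Submodule.subset_span ⟨hvW, hrat⟩))
  rwa [sub_add_cancel] at this

theorem galSet_rrSpace (e : ℂ ≃ₐ[ℚ] ℂ) (D : Divisor ℂ FC) :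
    galSet e (riemannRochSpace D) = (riemannRochSpace (gal N e • D) : Set FC) := by
  ext x
  constructor
  · rintro ⟨y, hy, rfl⟩
    refine mem_rrSpace.2 fun P => ?_
    have h := ordGE_gal (g := gal N e) (mem_rrSpace.1 hy ((gal N e)⁻¹ • P))
    rw [smul_inv_smul, ← SemilinearAut.divisor_smul_apply] at h
    exact h
  · intro hx
    refine ⟨(gal N e)⁻¹ • x, mem_rrSpace.2 fun P => ?_, smul_inv_smul _ _⟩
    have h := ordGE_gal (g := (gal N e)⁻¹) (mem_rrSpace.1 hx (gal N e • P))
    rw [inv_smul_smul, SemilinearAut.divisor_smul_apply_smul] at h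
    exact h

theorem galSet_one (W : Submodule ℂ FC) : galSet 1 W = W := by
  simp [galSet, map_one, Set.image_id']

/-- A stable linear system is spanned by elements with coefficients in the fixed field. -/
theorem le_span_rat_of_stable (k : IntermediateField ℚ ℂ) {G D : Divisor ℂ FC} (hD : D ≤ G)
    (hG : ∀ e ∈ Fix (k : Set ℂ), gal N e • G = G)
    (hs : ∀ e ∈ Fix (k : Set ℂ), gal N e • D = D) :
    riemannRochSpace D ≤
      Submodule.span ℂ {x | x ∈ riemannRochSpace D ∧ Rat (k : Set ℂ) x} :=
  le_span_rat k (Fix (k : Set ℂ)) (rrSpace_le hD) hG fun x hx => mem_of_fixed k fun e he => by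
    have := hx e he 1 (one_mem_fix _) (by rw [galSet_one, galSet_rrSpace, hs e he])
    simpa using this

/-- A linear system with finitely many translates is spanned by rational elements. -/
theorem le_span_rat_of_finite (S : Set ℂ) {G D : Divisor ℂ FC} (hD : D ≤ G)
    (hG : ∀ e ∈ Fix (acl S : Set ℂ), gal N e • G = G)
    (hfin : ((fun e => gal N e • D) '' Fix (acl S : Set ℂ)).Finite) :
    riemannRochSpace D ≤
      Submodule.span ℂ {x | x ∈ riemannRochSpace D ∧ Rat (acl S : Set ℂ) x} := by
  classical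
  refine le_span_rat (acl S) (Fix (acl S : Set ℂ)) (rrSpace_le hD) hG fun x hx => ?_
  refine mem_of_finite_orbit S ((hfin.image fun E =>
    if h : ∃ e ∈ Fix (acl S : Set ℂ), gal N e • D = E then h.choose x else 0).subset ?_)
  rintro _ ⟨e, he, rfl⟩
  refine ⟨_, ⟨e, he, rfl⟩, ?_⟩
  have h : ∃ e' ∈ Fix (acl S : Set ℂ), gal N e' • D = gal N e • D := ⟨e, he, rfl⟩
  show (if h : _ then _ else _) = _
  rw [dif_pos h]
  exact hx _ h.choose_spec.1 e he (by rw [galSet_rrSpace, galSet_rrSpace, h.choose_spec.2])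

end FLTAgent.Divisible
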