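import Fermat.Agent.Curves.Spaces
import Fermat.Agent.Curves.Degree
import Fermat.Prelude.Def_AlgebraicCurve_BaseChangeGalois

/-!
# Lemmas on a general function field used for divisibility of the class group
-/

set_option autoImplicit false

noncomputable section

namespace FLTAgent.Divisible

open AlgebraicCurve FLTAgent.Curves Polynomial

variable {K F : Type*} [Field K] [Field F] [Algebra K F]

theorem ordGE_sub_eval {v : Place K F} {x : F} {c : K}
    (hx : OrdGE v 1 (x - algebraMap K F c)) (p : K[X]) :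
    OrdGE v 1 (aeval x p - algebraMap K F (p.eval c)) := by
  obtain ⟨q, hq⟩ := X_sub_C_dvd_sub_C_eval (p := p) (a := c)
  have h0 : OrdGE v 0 x := by
    have := (hx.mono zero_le_one).add (ordGE_algebraMap v c)
    rwa [sub_add_cancel] at this
  have hq0 : OrdGE v 0 (aeval x q) := by
    rw [aeval_eq_sum_range]
    refine OrdGE.sum fun i _ => OrdGE.smul ?_ _
    simpa using h0.pow i
  have h1 := congrArg (aeval x) hq
  rw [map_sub, map_mul, map_sub, aeval_X, aeval_C, aeval_C] at h1
  rw [h1]
  simpa using hx.mul hq0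

theorem ord_eq_zero_of_sub {v : Place K F} {f : F} {c : K} (hc : c ≠ 0)
    (h : OrdGE v 1 (f - algebraMap K F c)) : f ≠ 0 ∧ v.ord f = 0 := by
  have hne : algebraMap K F c ≠ 0 := (_root_.map_ne_zero _).2 hc
  have h3 := ord_add_eq_left (v := v) (g := f - algebraMap K F c) hne (by
    rcases h with h | h
    · exact Or.inl h
    · exact Or.inr (by rw [ord_algebraMap]; omega))
  rw [add_sub_cancel, ord_algebraMap] at h3
  exact ⟨h3.2, h3.1⟩

theorem ordGE_div_sub {v : Place K F} {x : F} {c : K} (hx : OrdGE v 1 (x - algebraMap K F c))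
    (p q : K[X]) (hq : q.eval c ≠ 0) :
    OrdGE v 1 (aeval x p / aeval x q - algebraMap K F (p.eval c / q.eval c)) := by
  obtain ⟨hne, hord⟩ := ord_eq_zero_of_sub hq (ordGE_sub_eval hx q)
  have hc : algebraMap K F (q.eval c) ≠ 0 := (_root_.map_ne_zero _).2 hq
  have hinv : OrdGE v 0 (aeval x q)⁻¹ := ordGE_of_le (by rw [v.ord_inv, hord, neg_zero])
  have e : aeval x p / aeval x q - algebraMap K F (p.eval c / q.eval c) =
      ((aeval x p - algebraMap K F (p.eval c)) -
        algebraMap K F (p.eval c / q.eval c) * (aeval x q - algebraMap K F (q.eval c))) *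
          (aeval x q)⁻¹ := by
    rw [map_div₀]
    field_simp
    ring
  rw [e]
  have h2 := (ordGE_algebraMap v (p.eval c / q.eval c)).mul (ordGE_sub_eval hx q)
  rw [zero_add] at h2
  simpa using ((ordGE_sub_eval hx p).sub h2).mul hinv

theorem not_ordGE_of_mem_span {v : Place K F} {c : ℤ} {s : Set F} {f : F}
    (hf : f ∈ Submodule.span K s) (h : ¬ OrdGE v c f) : ∃ x ∈ s, ¬ OrdGE v c x := by
  by_contra! hall
  exact h (mem_ordGESubmodule.1 (Submodule.span_le.2
    (fun x hx => mem_ordGESubmodule.2 (hall x hx)) hf))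

theorem coord_fixed {b : Set F} (hb : LinearIndependent K ((↑) : b → F)) (r : b →₀ K)
    (g : SemilinearAut K F) (hbg : ∀ i : b, g • (i : F) = i)
    (h : g • (r.sum fun i a => a • (i : F)) = r.sum fun i a => a • (i : F)) (i : b) :
    SemilinearAut.baseAut g (r i) = r i := by
  have h1 : ∑ i ∈ r.support, (SemilinearAut.baseAut g (r i) - r i) • (i : F) = 0 := by
    rw [Finsupp.sum, Finset.smul_sum] at h
    rw [Finset.sum_congr rfl fun i _ => sub_smul _ _ _, Finset.sum_sub_distrib, sub_eq_zero]
    refine Eq.trans (Finset.sum_congr rfl fun j _ => ?_) h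
    rw [Algebra.smul_def (r j), smul_mul', SemilinearAut.smul_algebraMap, hbg j, ← Algebra.smul_def]
  by_cases hi : i ∈ r.support
  · exact sub_eq_zero.1 (linearIndependent_iff'.1 hb _ _ h1 i hi)
  · rw [Finsupp.notMem_support_iff.1 hi, map_zero]

theorem fixed_aeval {g : SemilinearAut K F} {x : F} (hx : g • x = x) {p : K[X]}
    (hp : ∀ n, SemilinearAut.baseAut g (p.coeff n) = p.coeff n) :
    g • aeval x p = aeval x p := by
  rw [aeval_eq_sum_range, Finset.smul_sum]
  refine Finset.sum_congr rfl fun i _ => ?_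
  rw [Algebra.smul_def, smul_mul', SemilinearAut.smul_algebraMap, hp, smul_pow', hx]

theorem smul_div_eq (g : SemilinearAut K F) (a b : F) : g • (a / b) = g • a / g • b :=
  map_div₀ (SemilinearAut.toRingAut g) a b

/-- A fraction in the value of `x` is the value of a fraction in `x`. -/
theorem exists_fraction {L : Type*} [Field L] [Algebra L K] (p q : L[X]) (x : F) (c r : K)
    (hr : r = aeval (R := L) c p / aeval (R := L) c q) (hq : q = 0 ∨ aeval (R := L) c q ≠ 0) :
    ∃ R : F, (∀ g : SemilinearAut K F, g • x = x →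
        (∀ l, SemilinearAut.baseAut g (algebraMap L K l) = algebraMap L K l) → g • R = R) ∧
      ∀ v : Place K F, OrdGE v 1 (x - algebraMap K F c) → OrdGE v 1 (R - algebraMap K F r) := by
  rcases hq with rfl | hq
  · refine ⟨0, fun g _ _ => smul_zero g, fun v _ => ?_⟩
    rw [hr, map_zero, div_zero, map_zero, sub_zero]
    exact ordGE_zero _ _
  refine ⟨aeval x (p.map (algebraMap L K)) / aeval x (q.map (algebraMap L K)),
    fun g hx hl => ?_, fun v hv => ?_⟩
  · have hfix : ∀ p : L[X],
        g • aeval x (p.map (algebraMap L K)) = aeval x (p.map (algebraMap L K)) :=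
      fun p => fixed_aeval hx fun n => by rw [coeff_map]; exact hl _
    rw [smul_div_eq, hfix p, hfix q]
  · have e : ∀ p : L[X], (p.map (algebraMap L K)).eval c = aeval (R := L) c p := fun p => by
      rw [eval_map, aeval_def]
    rw [hr, ← e p, ← e q]
    exact ordGE_div_sub hv (p.map (algebraMap L K)) (q.map (algebraMap L K))
      (by rw [eval_map, ← aeval_def]; exact hq)

theorem mem_range_of_finrank_one {W : Submodule K F} (hW : Module.finrank K W = 1)
    (h1 : (1 : F) ∈ W) {f : F} (hf : f ∈ W) : ∃ a : K, f = algebraMap K F a := by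
  obtain ⟨c, hc⟩ := (finrank_eq_one_iff_of_nonzero' (⟨1, h1⟩ : W)
    (fun h => one_ne_zero (congrArg Subtype.val h))).1 hW ⟨f, hf⟩
  exact ⟨c, (congrArg Subtype.val hc).symm.trans (Algebra.algebraMap_eq_smul_one c).symm⟩

theorem smul_mk_normalised (g : SemilinearAut K F) {v : Place K F} (hv : g • v = v)
    (D : Divisor K F) (n : ℤ) (h : D - Finsupp.single v n ∈ Divisor.degZero (K := K) (F := F))
    (h' : g • D - Finsupp.single v n ∈ Divisor.degZero (K := K) (F := F)) :
    g • Pic0.mk ⟨D - Finsupp.single v n, h⟩ = Pic0.mk ⟨g • D - Finsupp.single v n, h'⟩ := by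
  rw [SemilinearAut.pic0_smul_mk]
  refine congrArg Pic0.mk (Subtype.ext ?_)
  rw [SemilinearAut.coe_degZeroSMulHom, smul_sub, SemilinearAut.smul_single, hv]

end FLTAgent.Divisible
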