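import Fermat.Agent.Divisible.Autos
import Fermat.Agent.TorsionHom.GoodRep
import Fermat.Agent.Specialization.Riemann
import Fermat.Prelude.Def_ModularCurve_ArithmeticGalois

/-!
# Points of the modular curve over `ℂ` and automorphisms of `ℂ`
-/

set_option autoImplicit false

noncomputable section

namespace FLTAgent.Divisible

set_option linter.unusedSectionVars false

open AlgebraicCurve FLTAgent.X0Fn FLTAgent.Curves FLTAgent.Specialization
open ModularCurve (coeffMap arithmeticGalois modularFunctionFieldFull)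
open FLTAgent.TorsionHom (infPlace)

variable {N : ℕ} [NeZero N]

local notation "FC" => XF ℂ N
local notation "jC" => jF ℂ N

instance instIsFunctionFieldC : IsFunctionField ℂ (XF ℂ N) :=
  (isFunctionField_and_finrank (N := N) (RingHom.id ℂ)).1

theorem transcendental_jC : Transcendental ℂ jC := transcendental_jF (RingHom.id ℂ)

variable (N) in
/-- The cusp at infinity. -/
def cusp : Place ℂ (XF ℂ N) := infPlace N (RingHom.id ℂ)

variable (N) in
/-- The action on functions. -/
def gal : (ℂ ≃ₐ[ℚ] ℂ) →* SemilinearAut ℂ (XF ℂ N) := arithmeticGalois (modularFunctionFieldFull N)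

theorem coeff_gal (e : ℂ ≃ₐ[ℚ] ℂ) (x : FC) (i : ℤ) :
    ((gal N e • x : FC) : LaurentSeries ℂ).coeff i = e ((x : LaurentSeries ℂ).coeff i) :=
  ModularCurve.coeffMap_coeff _ _ i

theorem gal_algebraMap (e : ℂ ≃ₐ[ℚ] ℂ) (a : ℂ) :
    gal N e • algebraMap ℂ FC a = algebraMap ℂ FC (e a) :=
  SemilinearAut.smul_algebraMap (gal N e) a

theorem gal_smul (e : ℂ ≃ₐ[ℚ] ℂ) (a : ℂ) (x : FC) :
    gal N e • (a • x) = e a • (gal N e • x) := by
  rw [Algebra.smul_def, smul_mul', gal_algebraMap, ← Algebra.smul_def]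

theorem gal_jF (e : ℂ ≃ₐ[ℚ] ℂ) : gal N e • jC = jC :=
  Subtype.ext (ModularCurve.coeffMap_coeffEmb e ModularCurve.jq)

theorem ord_gal (g : SemilinearAut ℂ FC) (v : Place ℂ FC) (x : FC) :
    (g • v).ord (g • x) = v.ord x :=
  SemilinearAut.ord_smul g v x

theorem ordGE_gal {g : SemilinearAut ℂ FC} {v : Place ℂ FC} {c : ℤ} {x : FC}
    (h : OrdGE v c x) : OrdGE (g • v) c (g • x) := by
  rcases h with rfl | h
  · rw [smul_zero]; exact ordGE_zero _ _
  · exact ordGE_of_le (by rwa [ord_gal])

theorem gal_cusp (e : ℂ ≃ₐ[ℚ] ℂ) : gal N e • cusp N = cusp N := by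
  refine Curves.place_eq_of_le fun f hf => ?_
  rw [← ordGE_zero_iff_mem] at hf ⊢
  rcases hf with rfl | hf
  · exact ordGE_zero _ _
  refine Or.inr ?_
  have h1 : f = gal N e • ((gal N e)⁻¹ • f) := (smul_inv_smul _ f).symm
  rw [h1, ord_gal] at hf
  have h2 : (f : LaurentSeries ℂ).order = ((gal N e)⁻¹ • f : FC).1.order := by
    conv_lhs => rw [h1]
    exact order_eq_of_support_eq (Set.ext fun k => by
      simp only [HahnSeries.mem_support, coeff_gal]
      exact not_congr ((map_eq_zero_iff _ e.injective)))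
  rw [cusp, ← TorsionHom.order_coe, h2, TorsionHom.order_coe]
  exact hf

/-! ### The value of `j` -/

/-- A point at which `j` is finite. -/
def Affine (v : Place ℂ FC) : Prop := 0 ≤ v.ord jC

/-- The value of `j`. -/
def jval (v : Place ℂ FC) : ℂ := placeValue jC v

theorem Affine.ordGE {v : Place ℂ FC} (hv : Affine v) :
    OrdGE v 1 (jC - algebraMap ℂ FC (jval v)) :=
  ordGE_sub_placeValue hv

theorem eq_of_ordGE {v : Place ℂ FC} {x : FC} {a b : ℂ} (ha : OrdGE v 1 (x - algebraMap ℂ FC a))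
    (hb : OrdGE v 1 (x - algebraMap ℂ FC b)) : a = b := by
  by_contra hne
  have h := ha.sub hb
  rw [sub_sub_sub_cancel_left, ← map_sub] at h
  have h1 := h.le_ord ((map_ne_zero _).2 (sub_ne_zero.2 (Ne.symm hne)))
  rw [ord_algebraMap] at h1
  omega

theorem jval_eq {v : Place ℂ FC} {a : ℂ} (h : OrdGE v 1 (jC - algebraMap ℂ FC a)) :
    Affine v ∧ jval v = a := by
  have h2 := (h.mono zero_le_one).add (ordGE_algebraMap v a)
  rw [sub_add_cancel] at h2
  have h0 : Affine v := h2.le_ord (ne_zero_of_transcendental transcendental_jC)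
  exact ⟨h0, eq_of_ordGE h0.ordGE h⟩

theorem jval_gal {v : Place ℂ FC} (hv : Affine v) (e : ℂ ≃ₐ[ℚ] ℂ) :
    Affine (gal N e • v) ∧ jval (gal N e • v) = e (jval v) := by
  refine jval_eq ?_
  have h := ordGE_gal (g := gal N e) hv.ordGE
  rwa [smul_sub, gal_jF, gal_algebraMap] at h

theorem affine_gal_iff (e : ℂ ≃ₐ[ℚ] ℂ) {v : Place ℂ FC} : Affine (gal N e • v) ↔ Affine v := by
  unfold Affine
  rw [← gal_jF (N := N) e, ord_gal, gal_jF]

theorem not_affine_cusp : ¬ Affine (cusp N) := by
  intro h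
  have h1 := order_iota_jq (N := N) (RingHom.id ℂ)
  have h2 : ((jC : FC) : LaurentSeries ℂ).order = -1 := by
    have hne : (ModularCurve.coeffEmb ℂ ModularCurve.jq) ≠ 0 := fun h0 => by
      rw [h0, map_zero, HahnSeries.order_zero] at h1
      exact NeZero.ne N (by omega)
    rw [TorsionHom.order_iota _ hne] at h1
    exact mul_left_cancel₀ (Int.natCast_ne_zero.2 (NeZero.ne N)) (h1.trans (by ring))
  rw [TorsionHom.order_coe (RingHom.id ℂ)] at h2
  exact absurd h (by rw [Affine, cusp, h2]; norm_num)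

theorem finite_fibre (a : ℂ) : {v : Place ℂ FC | Affine v ∧ jval v = a}.Finite := by
  refine (finite_zeros (jC - algebraMap ℂ FC a)).subset fun v hv => ?_
  have h := hv.1.ordGE
  rw [hv.2] at h
  exact h.le_ord (ne_zero_of_transcendental (transcendental_sub transcendental_jC a))

theorem finite_not_affine : {v : Place ℂ FC | ¬ Affine v}.Finite :=
  (finite_poles jC).subset fun _ hv => not_le.1 hv

theorem exists_jval (a : ℂ) : ∃ v : Place ℂ FC, Affine v ∧ jval v = a := by
  obtain ⟨v, hv⟩ := exists_ord_pos (transcendental_sub (transcendental_jC (N := N)) a)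
  exact ⟨v, jval_eq (ordGE_of_le hv)⟩

/-- Points which are algebraic over a subfield. -/
def Special (S : Set ℂ) (v : Place ℂ FC) : Prop := Affine v → jval v ∈ acl S

theorem countable_special {S : Set ℂ} (hS : S.Countable) :
    {v : Place ℂ FC | Special S v}.Countable := by
  have : {v : Place ℂ FC | Special S v} ⊆
      {v | ¬ Affine v} ∪ ⋃ a ∈ (acl S : Set ℂ), {v | Affine v ∧ jval v = a} := fun v hv => by
    by_cases h : Affine v
    · exact Or.inr (Set.mem_biUnion (hv h) ⟨h, rfl⟩)
    · exact Or.inl h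
  exact (finite_not_affine.countable.union
    ((countable_acl hS).biUnion fun a _ => (finite_fibre a).countable)).mono this

theorem special_mono {S T : Set ℂ} (h : S ⊆ T) {v : Place ℂ FC} (hv : Special S v) :
    Special T v := fun ha => acl_mono h (hv ha)

theorem special_of_finite_orbit {S : Set ℂ} {v : Place ℂ FC}
    (h : ((fun e => gal N e • v) '' Fix (acl S : Set ℂ)).Finite) : Special S v := fun hv => by
  refine mem_of_finite_orbit S ((h.image jval).subset ?_)
  rintro _ ⟨e, he, rfl⟩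
  exact ⟨_, ⟨e, he, rfl⟩, (jval_gal hv e).2⟩

theorem finite_orbit_of_special {S : Set ℂ} {v : Place ℂ FC} (h : Special S v) :
    ((fun e => gal N e • v) '' Fix (acl S : Set ℂ)).Finite := by
  by_cases hv : Affine v
  · refine (finite_fibre (jval v)).subset ?_
    rintro _ ⟨e, he, rfl⟩
    exact ⟨(affine_gal_iff e).2 hv, ((jval_gal hv e).2).trans (he _ (h hv))⟩
  · refine finite_not_affine.subset ?_
    rintro _ ⟨e, _, rfl⟩
    exact fun h' => hv ((affine_gal_iff e).1 h')

/-- Functions with coefficients in a set. -/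
def Rat (k : Set ℂ) (x : FC) : Prop := ∀ i : ℤ, (x : LaurentSeries ℂ).coeff i ∈ k

theorem Rat.gal_eq {k : Set ℂ} {x : FC} (h : Rat k x) {e : ℂ ≃ₐ[ℚ] ℂ} (he : e ∈ Fix k) :
    gal N e • x = x :=
  Subtype.ext (HahnSeries.ext (funext fun i => (coeff_gal e x i).trans (he _ (h i))))

theorem rat_of_gal_eq (k : IntermediateField ℚ ℂ) {x : FC}
    (h : ∀ e ∈ Fix (k : Set ℂ), gal N e • x = x) : Rat (k : Set ℂ) x := fun i =>
  mem_of_fixed k fun e he => by rw [← coeff_gal, h e he]

theorem special_of_ord_ne_zero {S : Set ℂ} {x : FC}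
    (h : ∀ e ∈ Fix (acl S : Set ℂ), gal N e • x = x) {v : Place ℂ FC} (hv : v.ord x ≠ 0) :
    Special S v := by
  refine special_of_finite_orbit ((finite_support (K := ℂ) x).subset ?_)
  rintro _ ⟨e, he, rfl⟩
  show (gal N e • v).ord x ≠ 0
  rw [← h e he, ord_gal]
  exact hv

end FLTAgent.Divisible
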