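import Fermat.Agent.Divisible.Descent
import Fermat.Agent.Divisible.FieldLemmas

/-!
# Points over a transcendental value of `j` are conjugate
-/

set_option autoImplicit false

noncomputable section

namespace FLTAgent.Divisible

set_option linter.unusedSectionVars false

open AlgebraicCurve FLTAgent.X0Fn FLTAgent.Curves FLTAgent.Specialization
open Polynomial (aeval)

variable {N : ℕ} [NeZero N]

local notation "FC" => XF ℂ N
local notation "jC" => jF ℂ N

theorem gal_single_cusp (e : ℂ ≃ₐ[ℚ] ℂ) (m : ℤ) :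
    gal N e • Finsupp.single (cusp N) m = Finsupp.single (cusp N) m := by
  rw [SemilinearAut.smul_single, gal_cusp]

set_option maxHeartbeats 1000000 in
/-- Two points over a value transcendental over a subfield are conjugate over the field
generated by the value. -/
theorem exists_gal_eq (S : Set ℂ) {v w : Place ℂ FC} (hv : Affine v) (hw : Affine w)
    (hvw : jval w = jval v) (ha : jval v ∉ acl S) :
    ∃ e ∈ Fix (acl S : Set ℂ), gal N e • v = w := by
  classical
  set a := jval v with ha_def
  set L : IntermediateField ℚ ℂ := acl S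
  let k : IntermediateField ℚ ℂ :=
    (IntermediateField.adjoin L ({a} : Set ℂ)).restrictScalars ℚ
  have hak : a ∈ k := IntermediateField.subset_adjoin L _ rfl
  have hLk : (L : Set ℂ) ⊆ k := fun x hx =>
    (IntermediateField.adjoin L ({a} : Set ℂ)).algebraMap_mem ⟨x, hx⟩
  by_contra hne
  set O := (fun e => gal N e • v) '' Fix (k : Set ℂ) with hO
  have hOfin : O.Finite := by
    refine (finite_fibre a).subset ?_
    rintro _ ⟨e, he, rfl⟩
    exact ⟨(affine_gal_iff e).2 hv, ((jval_gal hv e).2).trans (he _ hak)⟩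
  have hwO : w ∉ O := fun ⟨e, he, h⟩ => hne ⟨e, fix_mono hLk he, h⟩
  set s := hOfin.toFinset
  set D : Divisor ℂ FC := ∑ P ∈ s, Finsupp.single P 1 with hD
  have hDapply : ∀ P, D P = if P ∈ s then 1 else 0 := fun P => by
    simp [hD, Finsupp.finsetSum_apply, Finsupp.single_apply]
  set m : ℤ := rBound ℂ FC + 1 + Divisor.degree D with hm
  set G : Divisor ℂ FC := Finsupp.single (cusp N) m with hG
  have hdeg : rBound ℂ FC + 1 ≤ Divisor.degree (G - D) := by
    rw [map_sub, hG, degree_single']; omega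
  obtain ⟨f, hf, hfw⟩ := exists_exact hdeg w
  have hwc : cusp N ≠ w := fun h => not_affine_cusp (h ▸ hw)
  have hGDw : (G - D) w = 0 := by
    rw [Finsupp.sub_apply, hG, Finsupp.single_eq_of_ne hwc.symm, hDapply,
      if_neg (fun h => hwO (hOfin.mem_toFinset.1 h)), sub_zero]
  have hfw' : ¬ OrdGE w 1 f := fun h => hfw (by rwa [hGDw])
  -- the system is stable
  have hstab : ∀ e ∈ Fix (k : Set ℂ), gal N e • (G - D) = G - D := by
    intro e he
    rw [smul_sub, hG, gal_single_cusp]
    congr 1
    ext P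
    rw [SemilinearAut.divisor_smul_apply, hDapply, hDapply]
    refine if_congr ?_ rfl rfl
    simp only [s, Set.Finite.mem_toFinset, hO, Set.mem_image]
    constructor
    · rintro ⟨e', he', h⟩
      exact ⟨e * e', mul_mem_fix he he', by rw [map_mul, mul_smul, h, smul_inv_smul]⟩
    · rintro ⟨e', he', h⟩
      exact ⟨e⁻¹ * e', mul_mem_fix (inv_mem_fix he) he', by rw [map_mul, mul_smul, h, map_inv]⟩
  have hle : G - D ≤ G := fun P => by
    rw [Finsupp.sub_apply, hDapply]; split_ifs <;> omega
  have hspan := le_span_rat_of_stable k hle (fun e _ => gal_single_cusp e m) hstab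
  obtain ⟨h, ⟨hh, hhk⟩, hhw⟩ := not_ordGE_of_mem_span (hspan hf) hfw'
  -- rational basis of the multiples of the cusp
  have hspan0 := le_span_rat_of_stable L (le_refl G) (fun e _ => gal_single_cusp e m)
    (fun e _ => gal_single_cusp e m)
  obtain ⟨b, hbsub, hbspan, hbli⟩ :=
    exists_linearIndependent ℂ {x | x ∈ riemannRochSpace G ∧ Rat (L : Set ℂ) x}
  have hb : h ∈ Submodule.span ℂ b := hbspan ▸ hspan0 (rrSpace_le hle hh)
  rw [← Subtype.range_coe (s := b), Finsupp.mem_span_range_iff_exists_finsupp] at hb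
  obtain ⟨r, hr⟩ := hb
  have hrk : ∀ i, r i ∈ k := fun i => mem_of_fixed k fun e he =>
    coord_fixed hbli r (gal N e) (fun i => (hbsub i.2).2.gal_eq (fix_mono hLk he))
      (by rw [hr]; exact hhk.gal_eq he) i
  -- fractions in the value
  have hfrac : ∀ i : b, ∃ R : FC, (∀ e ∈ Fix (L : Set ℂ), gal N e • R = R) ∧
      ∀ P : Place ℂ FC, Affine P → jval P = a → OrdGE P 1 (R - algebraMap ℂ FC (r i)) := by
    intro i
    obtain ⟨p, q, hpq⟩ := (IntermediateField.mem_adjoin_simple_iff L (r i)).1 (hrk i)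
    obtain ⟨R, hR1, hR2⟩ := exists_fraction (K := ℂ) (F := FC) p q jC a (r i) hpq
      (or_iff_not_imp_left.2 fun hq0 h0 => ha (mem_of_isAlgebraic ⟨q, hq0, h0⟩))
    exact ⟨R, fun e he => hR1 _ (gal_jF e) (fun l => he _ l.2),
      fun P hP hPa => hR2 P (hPa ▸ hP.ordGE)⟩
  choose R hRfix hR using hfrac
  set ht : FC := ∑ i ∈ r.support, R i * (i : FC)
  have hbreg : ∀ i : b, ∀ P : Place ℂ FC, Affine P → OrdGE P 0 (i : FC) := fun i P hP => by
    have := mem_rrSpace.1 ((hbsub i.2).1) P
    rwa [hG, Finsupp.single_eq_of_ne (fun h => not_affine_cusp (h ▸ hP)), neg_zero] at this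
  have hdiff : ∀ P : Place ℂ FC, Affine P → jval P = a → OrdGE P 1 (ht - h) := by
    intro P hP hPa
    rw [← hr, Finsupp.sum, ← Finset.sum_sub_distrib]
    refine OrdGE.sum fun i _ => ?_
    rw [Algebra.smul_def, ← sub_mul]
    exact (hR i P hP hPa).mul (hbreg i P hP)
  have hht : ∀ e ∈ Fix (L : Set ℂ), gal N e • ht = ht := fun e he => by
    rw [Finset.smul_sum]
    exact Finset.sum_congr rfl fun i _ => by rw [smul_mul', hRfix i e he, (hbsub i.2).2.gal_eq he]
  have hvz : OrdGE v 1 h := by
    have h1 := mem_rrSpace.1 hh v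
    rwa [Finsupp.sub_apply, hG, Finsupp.single_eq_of_ne (fun h => not_affine_cusp (h ▸ hv)),
      hDapply, if_pos (hOfin.mem_toFinset.2 ⟨1, one_mem_fix _, by simp only [map_one, one_smul]⟩),
      zero_sub, neg_neg] at h1
  have hhtv : OrdGE v 1 ht := by simpa using (hdiff v hv rfl).add hvz
  by_cases ht0 : ht = 0
  · exact hhw (by simpa [ht0] using (hdiff w hw hvw).neg)
  · exact ha (special_of_ord_ne_zero hht (by have := hhtv.le_ord ht0; omega) hv)

end FLTAgent.Divisible
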